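import Fermat.Agent.IwasawaGrowth.Tower
import Mathlib.NumberTheory.Cyclotomic.Gal
import Mathlib.RingTheory.ZMod.UnitsCyclic

/-!
# The fields `E(ζ_{p^(n+1)})`

`K` contains the `p`-th roots of unity and `E/K` is a finite Galois `p`-extension. Then
`comp E n = E(ζ_{p^(n+1)})` is a Galois `p`-extension of `K` of degree `p ^ b n`, where `b` grows by
at most one at a step and is at least `n - O(1)`; so above some level it grows by exactly one
(`exists_degree_eq`), and the group of `comp E (n + j)` over `comp E n` is cyclic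
(`isCyclic_sub_comp`).
-/

set_option autoImplicit false
set_option linter.unusedSectionVars false
set_option linter.style.haveILetI false

noncomputable section

open FA.IwasawaGrowth
open scoped Classical

namespace FA.MuExtensions

variable {K : Type} [Field K] [NumberField K] {p : ℕ} [hp : Fact p.Prime]

local notation "Ω" => AlgebraicClosure K

variable (K p) in
/-- `K(ζ_{p^(n+1)})`. -/
def cycOver (n : ℕ) : IntermediateField K (AlgebraicClosure K) :=
  IntermediateField.adjoin K {b | ∃ m ∈ ({p ^ (n + 1)} : Set ℕ), m ≠ 0 ∧ b ^ m = 1}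

instance isCyclotomic_cycOver (n : ℕ) :
    IsCyclotomicExtension {p ^ (n + 1)} K (cycOver K p n) :=
  IntermediateField.isCyclotomicExtension_adjoin_of_exists_isPrimitiveRoot _ _ _
    fun m hm hm0 => by
      haveI : NeZero m := ⟨hm0⟩
      obtain ⟨r, hr⟩ := IsAlgClosed.exists_root (Polynomial.cyclotomic m (AlgebraicClosure K))
        (Polynomial.degree_cyclotomic_pos m _ (Nat.pos_of_ne_zero hm0)).ne'
      exact ⟨r, Polynomial.isRoot_cyclotomic_iff.1 hr⟩

instance finite_cycOver (n : ℕ) : FiniteDimensional K (cycOver K p n) :=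
  haveI : NeZero (p ^ (n + 1)) := ⟨pow_ne_zero _ hp.out.ne_zero⟩
  IsCyclotomicExtension.finiteDimensional {p ^ (n + 1)} K _

instance isGalois_cycOver (n : ℕ) : IsGalois K (cycOver K p n) :=
  IsCyclotomicExtension.isGalois {p ^ (n + 1)} K _

theorem cycOver_mono : Monotone (cycOver K p) := fun n m h =>
  IntermediateField.adjoin.mono _ _ _ fun _ ⟨k, hk, _, hb⟩ =>
    ⟨_, rfl, pow_ne_zero _ hp.out.ne_zero, by
      obtain ⟨d, hd⟩ := pow_dvd_pow p (Nat.succ_le_succ h)
      rw [Set.mem_singleton_iff.1 hk] at hb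
      rw [hd, pow_mul, hb, one_pow]⟩

theorem exists_primitive (n : ℕ) : ∃ z : cycOver K p n, IsPrimitiveRoot z (p ^ (n + 1)) :=
  IsCyclotomicExtension.exists_isPrimitiveRoot K (cycOver K p n) (Set.mem_singleton _)
    (pow_ne_zero _ hp.out.ne_zero)

theorem isCyclic_cycOver (hp2 : p ≠ 2) (n : ℕ) : IsCyclic (cycOver K p n ≃ₐ[K] cycOver K p n) := by
  haveI : NeZero (p ^ (n + 1)) := ⟨pow_ne_zero _ hp.out.ne_zero⟩
  haveI := ZMod.isCyclic_units_of_prime_pow p hp.out hp2 (n + 1)
  exact isCyclic_of_injective _ (IsPrimitiveRoot.autToPow_injective K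
    (IsCyclotomicExtension.zeta_spec (p ^ (n + 1)) K (cycOver K p n)))

/-- A root of unity in the level `n` from one above. -/
theorem coe_pow_mem {n : ℕ} {z : Ω} (hz : z ^ p ^ (n + 1) = 1) : z ∈ cycOver K p n :=
  IntermediateField.subset_adjoin _ _ ⟨_, rfl, pow_ne_zero _ hp.out.ne_zero, hz⟩

/-- The kernel of the restriction to the level below has exponent and order at most `p`. -/
theorem kernel_step (n : ℕ) :
    (∀ s ∈ sub (cycOver_mono (K := K) (p := p) n.le_succ), s ^ p = 1) ∧
      Nat.card (sub (cycOver_mono (K := K) (p := p) n.le_succ)) ≤ p := by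
  haveI : NeZero (p ^ (n + 1 + 1)) := ⟨pow_ne_zero _ hp.out.ne_zero⟩
  obtain ⟨z, hz⟩ := exists_primitive (K := K) (p := p) (n + 1)
  have hz1 : IsPrimitiveRoot (z ^ p ^ (n + 1)) p :=
    hz.pow (pow_pos hp.out.pos _) (pow_succ p (n + 1))
  have hfix : ∀ s ∈ sub (cycOver_mono (K := K) (p := p) n.le_succ), ∀ x : cycOver K p (n + 1),
      x ^ p ^ (n + 1) = 1 → s x = x := fun s hs x hx =>
    (mem_sub _).1 hs x (coe_pow_mem (by
      exact_mod_cast congrArg (fun y : cycOver K p (n + 1) => (y : Ω)) hx))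
  have hzp : (z ^ p) ^ p ^ (n + 1) = 1 := by rw [← pow_mul, ← pow_succ', hz.pow_eq_one]
  have hroot : ∀ s ∈ sub (cycOver_mono (K := K) (p := p) n.le_succ),
      ∃ i, i < p ∧ s z = (z ^ p ^ (n + 1)) ^ i * z := fun s hs => by
    haveI : NeZero p := ⟨hp.out.ne_zero⟩
    have hz0 : z ≠ 0 := hz.ne_zero (NeZero.ne _)
    obtain ⟨i, hi, hi'⟩ := hz1.eq_pow_of_pow_eq_one (ξ := s z / z) (by
      rw [div_pow, ← map_pow, hfix s hs _ hzp, div_self (pow_ne_zero _ hz0)])
    exact ⟨i, hi, by rw [hi', div_mul_cancel₀ _ hz0]⟩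
  refine ⟨fun s hs => ?_, ?_⟩
  · obtain ⟨i, -, hi⟩ := hroot s hs
    have hfixp : s (z ^ p ^ (n + 1)) = z ^ p ^ (n + 1) :=
      hfix s hs _ (by
        rw [← pow_mul, ← pow_add]
        obtain ⟨d, hd⟩ := pow_dvd_pow p (show n + 1 + 1 ≤ n + 1 + (n + 1) by omega)
        rw [hd, pow_mul, hz.pow_eq_one, one_pow])
    refine IsCyclotomicExtension.algEquiv_eq_of_apply_eq {p ^ (n + 1 + 1)} K _ ?_
    intro m hm hm0
    rw [Set.mem_singleton_iff.1 hm]
    refine ⟨z, hz, ?_⟩
    have key : ∀ j, (s ^ j) z = ((z ^ p ^ (n + 1)) ^ i) ^ j * z := fun j => by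
      induction j with
      | zero => simp
      | succ j ih =>
        rw [pow_succ' s, AlgEquiv.mul_apply, ih, map_mul, map_pow, map_pow, hfixp, hi, ← mul_assoc,
          ← pow_succ]
    rw [key p, AlgEquiv.one_apply, ← pow_mul, mul_comm i p, pow_mul, hz1.pow_eq_one, one_pow,
      one_mul]
  · refine (Nat.card_le_card_of_injective
      (fun s : sub (cycOver_mono (K := K) (p := p) n.le_succ) =>
        (⟨(hroot s.1 s.2).choose, (hroot s.1 s.2).choose_spec.1⟩ : Fin p)) fun s s' h => ?_).trans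
      (le_of_eq (Nat.card_fin p))
    refine Subtype.ext (IsCyclotomicExtension.algEquiv_eq_of_apply_eq {p ^ (n + 1 + 1)} K _ ?_)
    intro m hm hm0
    rw [Set.mem_singleton_iff.1 hm]
    refine ⟨z, hz, ?_⟩
    rw [(hroot s.1 s.2).choose_spec.2, (hroot s'.1 s'.2).choose_spec.2,
      show (hroot s.1 s.2).choose = (hroot s'.1 s'.2).choose from congrArg Fin.val h]

/-- `Gal(K(ζ_{p^(n+1)})/K)` is a `p`-group. -/
theorem isPGroup_cycOver (hζ : ∃ ζ : K, IsPrimitiveRoot ζ p) (n : ℕ) :
    IsPGroup p (cycOver K p n ≃ₐ[K] cycOver K p n) := by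
  induction n with
  | zero =>
    intro s
    refine ⟨0, ?_⟩
    rw [pow_zero, pow_one]
    refine IsCyclotomicExtension.algEquiv_eq_of_apply_eq {p ^ (0 + 1)} K _ ?_
    intro m hm hm0
    rw [Set.mem_singleton_iff.1 hm]
    obtain ⟨ζ, hζ⟩ := hζ
    refine ⟨algebraMap K _ ζ, ?_, ?_⟩
    · rw [zero_add, pow_one]
      exact hζ.map_of_injective (algebraMap K _).injective
    · rw [AlgEquiv.commutes, AlgEquiv.one_apply]
  | succ n ih =>
    intro s
    obtain ⟨a, ha⟩ := ih (res (cycOver_mono (K := K) (p := p) n.le_succ) s)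
    refine ⟨a + 1, ?_⟩
    rw [pow_succ, pow_mul]
    refine (kernel_step n).1 _ ?_
    rw [← ker_res, MonoidHom.mem_ker, map_pow, ha]

variable (E : IntermediateField K (AlgebraicClosure K)) [FiniteDimensional K E] [IsGalois K E]

variable (p) in
/-- `E(ζ_{p^(n+1)})`. -/
def comp (n : ℕ) : IntermediateField K (AlgebraicClosure K) := E ⊔ cycOver K p n

instance finite_comp (n : ℕ) : FiniteDimensional K (comp p E n) :=
  IntermediateField.finiteDimensional_sup _ _

instance isGalois_comp (n : ℕ) : IsGalois K (comp p E n) :=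
  haveI : Normal K (comp p E n) := IntermediateField.normal_sup K (AlgebraicClosure K) E _
  ⟨⟩

variable (p) in
theorem left_le_comp (n : ℕ) : E ≤ comp p E n := le_sup_left

variable (p) in
theorem cycOver_le_comp (n : ℕ) : cycOver K p n ≤ comp p E n := le_sup_right

variable (p) in
theorem comp_mono : Monotone (comp p E) := fun _ _ h => sup_le_sup_left (cycOver_mono h) E

/-- An automorphism trivial on two fields is trivial on their compositum. -/
theorem eq_one_of_res {A B L : IntermediateField K Ω} [FiniteDimensional K L] [IsGalois K L]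
    [Normal K A] [Normal K B] (hA : A ≤ L) (hB : B ≤ L) (h : L ≤ A ⊔ B) {s : L ≃ₐ[K] L}
    (h1 : res hA s = 1) (h2 : res hB s = 1) : s = 1 := by
  set F := IntermediateField.lift (IntermediateField.fixedField (Subgroup.zpowers s))
  have key : ∀ {D : IntermediateField K Ω} [Normal K D] (hD : D ≤ L), res hD s = 1 → D ≤ F :=
    fun {D} _ hD hs x hx => by
      refine (IntermediateField.mem_lift (⟨x, hD hx⟩ : L)).2
        ((IntermediateField.mem_fixedField_iff _ _).2 fun g hg => ?_)
      have h3 : Subgroup.zpowers s ≤ sub hD := by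
        rw [Subgroup.zpowers_le, ← ker_res, MonoidHom.mem_ker]
        exact hs
      exact (mem_sub hD).1 (h3 hg) _ hx
  refine AlgEquiv.ext fun x => ?_
  have hx : (x : Ω) ∈ F := sup_le (key hA h1) (key hB h2) (h x.2)
  exact (IntermediateField.mem_fixedField_iff _ _).1 ((IntermediateField.mem_lift x).1 hx) s
    (Subgroup.mem_zpowers s)

theorem isPGroup_comp (hζ : ∃ ζ : K, IsPrimitiveRoot ζ p) (hE : IsPGroup p (E ≃ₐ[K] E)) (n : ℕ) :
    IsPGroup p (comp p E n ≃ₐ[K] comp p E n) := fun s => by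
  obtain ⟨a, ha⟩ := hE (res (left_le_comp p E n) s)
  obtain ⟨b, hb⟩ := isPGroup_cycOver hζ n (res (cycOver_le_comp p E n) s)
  refine ⟨a + b, eq_one_of_res (left_le_comp p E n) (cycOver_le_comp p E n) le_rfl ?_ ?_⟩
  · rw [map_pow, pow_add, pow_mul, ha, one_pow]
  · rw [map_pow, pow_add, mul_comm, pow_mul, hb, one_pow]

/-- The degree grows at most by `p` at a step. -/
theorem finrank_comp_succ_le (n : ℕ) :
    Module.finrank K (comp p E (n + 1)) ≤ p * Module.finrank K (comp p E n) := by
  have h := comp_mono p E n.le_succ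
  rw [← IsGalois.card_aut_eq_finrank, ← IsGalois.card_aut_eq_finrank,
    ← Subgroup.card_mul_index (res h).ker, Subgroup.index_ker,
    MonoidHom.range_eq_top.2 (res_surjective h), Subgroup.card_top]
  refine Nat.mul_le_mul_right _ (le_trans (Nat.card_le_card_of_injective
    (fun s : (res h).ker => (⟨res (cycOver_le_comp p E (n + 1)) s.1, ?_⟩ :
      sub (cycOver_mono (K := K) (p := p) n.le_succ))) fun s s' hss => ?_) (kernel_step n).2)
  · rw [← ker_res, MonoidHom.mem_ker, res_trans]
    have h1 := res_trans (cycOver_le_comp p E n) h s.1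
    rw [s.2, map_one] at h1
    exact h1.symm
  · refine Subtype.ext (mul_inv_eq_one.1 (eq_one_of_res (left_le_comp p E (n + 1))
      (cycOver_le_comp p E (n + 1)) le_rfl ?_ ?_))
    · have h1 : ∀ t : (res h).ker, res (left_le_comp p E (n + 1)) t.1 = 1 := fun t => by
        rw [← res_trans (left_le_comp p E n) h, t.2, map_one]
      rw [map_mul, map_inv, h1, h1, inv_one, mul_one]
    · rw [map_mul, map_inv, mul_inv_eq_one]
      exact congrArg Subtype.val hss

/-- The group over a lower level is cyclic. -/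
theorem isCyclic_sub_comp (hp2 : p ≠ 2) {n m : ℕ} (h : n ≤ m) :
    IsCyclic (sub (comp_mono p E h)) := by
  haveI := isCyclic_cycOver (K := K) (p := p) hp2 m
  refine isCyclic_of_injective ((res (cycOver_le_comp p E m)).comp
    (sub (comp_mono p E h)).subtype) fun s s' hss => ?_
  have h1 : ∀ t : sub (comp_mono p E h), res (left_le_comp p E m) t.1 = 1 :=
    fun t => by
    have h2 : t.1 ∈ (res (comp_mono p E h)).ker := by rw [ker_res]; exact t.2
    rw [← res_trans (left_le_comp p E n) (comp_mono p E h), MonoidHom.mem_ker.1 h2, map_one]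
  refine Subtype.ext (mul_inv_eq_one.1 (eq_one_of_res (left_le_comp p E m) (cycOver_le_comp p E m)
    le_rfl ?_ ?_))
  · rw [map_mul, map_inv, h1, h1, inv_one, mul_one]
  · rw [map_mul, map_inv, mul_inv_eq_one]
    exact hss

/-- The degree is at most linear in `p ^ n`. -/
theorem finrank_comp_le (n : ℕ) :
    Module.finrank K (comp p E n) ≤ Module.finrank K (comp p E 0) * p ^ n := by
  induction n with
  | zero => simp
  | succ n ih =>
    refine (finrank_comp_succ_le E n).trans ((Nat.mul_le_mul_left p ih).trans (le_of_eq ?_))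
    ring

/-- The degree is at least linear in `p ^ n`. -/
theorem le_finrank_comp (n : ℕ) :
    p ^ n ≤ Module.finrank ℚ K * Module.finrank K (comp p E n) := by
  obtain ⟨z, hz⟩ := exists_primitive (K := K) (p := p) n
  have hz' : IsPrimitiveRoot (IntermediateField.inclusion (cycOver_le_comp p E n) z)
      (p ^ (n + 1)) :=
    hz.map_of_injective (IntermediateField.inclusion (cycOver_le_comp p E n)).injective
  haveI : Module.Finite ℚ (comp p E n) := Module.Finite.trans K _
  have h1 := minpoly.natDegree_le (A := ℚ) (IntermediateField.inclusion (cycOver_le_comp p E n) z)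
  rw [← Polynomial.cyclotomic_eq_minpoly_rat hz' (pow_pos hp.out.pos _),
    Polynomial.natDegree_cyclotomic, ← Module.finrank_mul_finrank ℚ K (comp p E n),
    Nat.totient_prime_pow_succ hp.out] at h1
  exact (Nat.le_mul_of_pos_right _ (Nat.sub_pos_of_lt hp.out.one_lt)).trans h1

/-- **Above some level the degree grows by `p` at each step.** -/
theorem exists_degree_eq (hζ : ∃ ζ : K, IsPrimitiveRoot ζ p) (hE : IsPGroup p (E ≃ₐ[K] E)) :
    ∃ n₁, ∀ j, Module.finrank K (comp p E (n₁ + j)) =
      p ^ j * Module.finrank K (comp p E n₁) := by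
  choose b hb using fun n => IsPGroup.iff_card.1 (isPGroup_comp E hζ hE n)
  simp only [IsGalois.card_aut_eq_finrank] at hb
  obtain ⟨D, hD⟩ : ∃ D, Module.finrank ℚ K ≤ p ^ D :=
    ⟨_, (Nat.lt_pow_self hp.out.one_lt).le⟩
  have hlow : ∀ n, n ≤ b n + D := fun n => by
    have h1 := (le_finrank_comp (p := p) E n).trans (Nat.mul_le_mul_right _ hD)
    rw [hb, ← pow_add] at h1
    have := (Nat.pow_le_pow_iff_right hp.out.one_lt).1 h1
    omega
  have hup : ∀ n, b (n + 1) ≤ b n + 1 := fun n => by
    have h1 := finrank_comp_succ_le (p := p) E n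
    rw [hb, hb, ← pow_succ'] at h1
    exact (Nat.pow_le_pow_iff_right hp.out.one_lt).1 h1
  obtain ⟨n₁, hn₁⟩ : ∃ n₁, ∀ n, b n₁ + D - n₁ ≤ b n + D - n :=
    ⟨Function.argmin fun n => b n + D - n, fun n => Function.argmin_le (fun n => b n + D - n) n⟩
  refine ⟨n₁, fun j => ?_⟩
  have hj : b (n₁ + j) = b n₁ + j := by
    induction j with
    | zero => rfl
    | succ j ih =>
      have h1 := hup (n₁ + j)
      have h2 := hn₁ (n₁ + (j + 1))
      have h3 := hlow n₁
      have h4 := hlow (n₁ + (j + 1))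
      rw [show n₁ + (j + 1) = n₁ + j + 1 by omega] at h2 h4 ⊢
      omega
  rw [hb, hb, hj, pow_add, mul_comm]

end FA.MuExtensions
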