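import Mathlib

/-!
# Primes above a rational prime in fields of roots of unity

If `M` contains a primitive root of unity of order `p ^ (n + 1)` and `ℓ` is a prime then `M` has at
most `C_ℓ [M : ℚ] / p ^ n` primes over `ℓ` (`exists_card_primes_le`): the residue degrees are large
for `ℓ ≠ p`, the ramification indices for `ℓ = p`.
-/

set_option autoImplicit false
set_option linter.unusedSectionVars false
set_option linter.style.haveILetI false

noncomputable section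

open NumberField IsDedekindDomain Polynomial
open scoped Classical

namespace FA.MuExtensions

variable {M : Type} [Field M] [NumberField M] {p : ℕ} [hp : Fact p.Prime]

/-- The norm of a rational integer. -/
theorem absNorm_natCast_ideal (n : ℕ) :
    Ideal.absNorm (Ideal.span {(n : 𝓞 M)}) = n ^ Module.finrank ℚ M := by
  rw [Ideal.absNorm_span_singleton, show (n : 𝓞 M) = algebraMap ℤ (𝓞 M) n by simp,
    Algebra.norm_algebraMap]
  simp [Int.natAbs_pow, RingOfIntegers.rank]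

/-- Prime powers dividing `(ℓ)` with large norms are few. -/
theorem card_primes_mul_le {ℓ : ℕ} (hℓ : ℓ.Prime) {a b c : ℕ}
    (h : ∀ v : HeightOneSpectrum (𝓞 M), (ℓ : 𝓞 M) ∈ v.asIdeal →
      v.asIdeal ^ a ∣ Ideal.span {(ℓ : 𝓞 M)} ∧
        ∃ f, Ideal.absNorm v.asIdeal = ℓ ^ f ∧ b ≤ c * (a * f)) :
    Nat.card {v : HeightOneSpectrum (𝓞 M) // (ℓ : 𝓞 M) ∈ v.asIdeal} * b ≤
      c * Module.finrank ℚ M := by
  have hfin : {v : HeightOneSpectrum (𝓞 M) | (ℓ : 𝓞 M) ∈ v.asIdeal}.Finite :=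
    (Ideal.finite_factors (I := Ideal.span {(ℓ : 𝓞 M)}) (by simp [hℓ.ne_zero])).subset
      fun v hv => Ideal.dvd_span_singleton.mpr hv
  set s := hfin.toFinset
  have hs : ∀ {v}, v ∈ s ↔ (ℓ : 𝓞 M) ∈ v.asIdeal := hfin.mem_toFinset
  choose f hf hb using fun (v : s) => (h v.1 (hs.1 v.2)).2
  have hd : (∏ v : s, v.1.asIdeal ^ a) ∣ Ideal.span {(ℓ : 𝓞 M)} := by
    refine Finset.prod_dvd_of_coprime (fun v _ w _ hne => ?_) fun v _ => (h v.1 (hs.1 v.2)).1
    exact IsCoprime.pow (Ideal.isCoprime_iff_sup_eq.2 (Ideal.IsMaximal.coprime_of_ne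
      v.1.isMaximal w.1.isMaximal fun he => hne (Subtype.ext (HeightOneSpectrum.ext he))))
  have hd' : ℓ ^ (∑ v : s, a * f v) ∣ ℓ ^ Module.finrank ℚ M := by
    rw [← absNorm_natCast_ideal (M := M) ℓ]
    refine dvd_trans (dvd_of_eq ?_) (map_dvd Ideal.absNorm hd)
    rw [map_prod, ← Finset.prod_pow_eq_pow_sum]
    exact Finset.prod_congr rfl fun v _ => by rw [map_pow, hf, ← pow_mul, mul_comm]
  have hle := (Nat.pow_dvd_pow_iff_le_right hℓ.one_lt).1 hd'
  calc Nat.card {v : HeightOneSpectrum (𝓞 M) // (ℓ : 𝓞 M) ∈ v.asIdeal} * b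
      = ∑ _v : s, b := by
        rw [Finset.sum_const, Finset.card_univ, smul_eq_mul, ← Nat.card_eq_fintype_card]
        exact congrArg (· * b) (Nat.card_congr (Equiv.subtypeEquivRight fun v => hs.symm))
    _ ≤ ∑ v : s, c * (a * f v) := Finset.sum_le_sum fun v _ => hb v
    _ = c * ∑ v : s, a * f v := (Finset.mul_sum _ _ _).symm
    _ ≤ _ := Nat.mul_le_mul_left c hle

/-- The norm of a prime over `ℓ` is a positive power of `ℓ`. -/
theorem exists_absNorm_eq_pow {ℓ : ℕ} (hℓ : ℓ.Prime) {v : HeightOneSpectrum (𝓞 M)}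
    (hv : (ℓ : 𝓞 M) ∈ v.asIdeal) : ∃ f, 0 < f ∧ Ideal.absNorm v.asIdeal = ℓ ^ f := by
  have h : Ideal.absNorm v.asIdeal ∣ ℓ ^ Module.finrank ℚ M :=
    absNorm_natCast_ideal (M := M) ℓ ▸
      map_dvd Ideal.absNorm (Ideal.dvd_span_singleton.mpr hv)
  obtain ⟨f, -, hf⟩ := (Nat.dvd_prime_pow hℓ).1 h
  refine ⟨f, Nat.pos_of_ne_zero fun h0 => v.isPrime.ne_top ?_, hf⟩
  rw [← Ideal.absNorm_eq_one_iff, hf, h0, pow_zero]

/-- A root of unity stays primitive modulo a prime not dividing its order. -/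
theorem orderOf_mod_dvd {v : HeightOneSpectrum (𝓞 M)} {m : ℕ} (hm : (m : 𝓞 M) ∉ v.asIdeal)
    {z : 𝓞 M} (hz : IsPrimitiveRoot z m) : m ∣ Ideal.absNorm v.asIdeal - 1 := by
  haveI := v.isMaximal
  haveI : Finite (𝓞 M ⧸ v.asIdeal) := Ideal.finiteQuotientOfFreeOfNeBot _ v.ne_bot
  letI := Ideal.Quotient.field v.asIdeal
  letI := Fintype.ofFinite (𝓞 M ⧸ v.asIdeal)
  haveI : NeZero (m : 𝓞 M ⧸ v.asIdeal) :=
    ⟨fun h => hm (Ideal.Quotient.eq_zero_iff_mem.1
      ((map_natCast (Ideal.Quotient.mk v.asIdeal) m).trans h))⟩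
  haveI : NeZero m := ⟨fun h => hm (by rw [h, Nat.cast_zero]; exact zero_mem _)⟩
  haveI : NeZero (m : 𝓞 M) := ⟨Nat.cast_ne_zero.2 (NeZero.ne m)⟩
  have hroot : (cyclotomic m (𝓞 M ⧸ v.asIdeal)).IsRoot (Ideal.Quotient.mk v.asIdeal z) := by
    rw [← map_cyclotomic m (Ideal.Quotient.mk v.asIdeal)]
    exact Polynomial.IsRoot.map (isRoot_cyclotomic_iff.2 hz)
  have hprim := isRoot_cyclotomic_iff.1 hroot
  rw [hprim.eq_orderOf, Ideal.absNorm_apply, Submodule.cardQuot_apply, Nat.card_eq_fintype_card]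
  exact orderOf_dvd_of_pow_eq_one (FiniteField.pow_card_sub_one_eq_one _ fun h0 => by
    have h1 := hprim.pow_eq_one
    rw [h0, zero_pow (NeZero.ne m)] at h1
    exact zero_ne_one h1)

/-- **The bound on the primes over `ℓ`.** -/
theorem exists_card_primes_le (hp2 : p ≠ 2) {ℓ : ℕ} (hℓ : ℓ.Prime) :
    ∃ C : ℕ, ∀ (n : ℕ) (M : Type) [Field M] [NumberField M] (z : M),
      IsPrimitiveRoot z (p ^ (n + 1)) →
      Nat.card {v : HeightOneSpectrum (𝓞 M) // (ℓ : 𝓞 M) ∈ v.asIdeal} * p ^ n ≤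
        C * Module.finrank ℚ M := by
  have hone := hp.out.one_lt
  rcases eq_or_ne ℓ p with rfl | hne
  · refine ⟨1, fun n M _ _ z hz => ?_⟩
    have hm0 : 0 < ℓ ^ (n + 1) := pow_pos hℓ.pos _
    haveI : NeZero (ℓ ^ (n + 1)) := ⟨hm0.ne'⟩
    have hz' : IsPrimitiveRoot hz.toInteger (ℓ ^ (n + 1)) := hz.toInteger_isPrimitiveRoot
    set ξ := hz.toInteger
    have hprod : (ℓ : 𝓞 M) = ∏ μ ∈ primitiveRoots (ℓ ^ (n + 1)) (𝓞 M), (1 - μ) := by
      rw [← eval_one_cyclotomic_prime_pow (R := 𝓞 M) (p := ℓ) n,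
        cyclotomic_eq_prod_X_sub_primitiveRoots hz', eval_prod]
      simp
    refine card_primes_mul_le hℓ (a := Nat.totient (ℓ ^ (n + 1))) fun v hv => ⟨?_, ?_⟩
    · have hξ : (1 - ξ) ∈ v.asIdeal := by
        have hprod' := hv
        rw [hprod] at hprod'
        haveI := v.isPrime
        obtain ⟨μ, hμ, hμv⟩ := Ideal.IsPrime.prod_mem_iff.1 hprod'
        obtain ⟨i, -, hi⟩ := ((mem_primitiveRoots hm0).1 hμ).eq_pow_of_pow_eq_one
          (ξ := ξ) hz'.pow_eq_one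
        rw [← hi]
        exact Ideal.mem_of_dvd _ (one_sub_dvd_one_sub_pow μ i) hμv
      rw [← hz'.card_primitiveRoots]
      calc v.asIdeal ^ (primitiveRoots (ℓ ^ (n + 1)) (𝓞 M)).card
          = ∏ _μ ∈ primitiveRoots (ℓ ^ (n + 1)) (𝓞 M), v.asIdeal := (Finset.prod_const _).symm
        _ ∣ ∏ μ ∈ primitiveRoots (ℓ ^ (n + 1)) (𝓞 M), Ideal.span {1 - μ} :=
            Finset.prod_dvd_prod_of_dvd _ _ fun μ hμ => Ideal.dvd_span_singleton.2 (by
              obtain ⟨i, -, hi⟩ := hz'.eq_pow_of_pow_eq_one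
                ((mem_primitiveRoots hm0).1 hμ).pow_eq_one
              rw [← hi]
              exact Ideal.mem_of_dvd _ (one_sub_dvd_one_sub_pow ξ i) hξ)
        _ = Ideal.span {(ℓ : 𝓞 M)} := by rw [Ideal.prod_span_singleton, ← hprod]
    · obtain ⟨f, hf0, hf⟩ := exists_absNorm_eq_pow hℓ hv
      refine ⟨f, hf, ?_⟩
      rw [one_mul, Nat.totient_prime_pow_succ hℓ, mul_assoc]
      exact Nat.le_mul_of_pos_right _ (Nat.mul_pos (by omega) hf0)
  · set k := padicValNat p (ℓ ^ (p - 1) - 1)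
    refine ⟨p ^ k, fun n M _ _ z hz => ?_⟩
    refine card_primes_mul_le hℓ (a := 1) fun v hv =>
      ⟨by rw [pow_one]; exact Ideal.dvd_span_singleton.mpr hv, ?_⟩
    obtain ⟨f, hf0, hf⟩ := exists_absNorm_eq_pow hℓ hv
    refine ⟨f, hf, ?_⟩
    have hpv : (p : 𝓞 M) ∉ v.asIdeal := fun hpv => by
      refine v.isPrime.ne_top ((Ideal.eq_top_iff_one _).2 ?_)
      obtain ⟨a, b, hab⟩ := Int.isCoprime_iff_nat_coprime.2
        (show Nat.Coprime (ℓ : ℤ).natAbs (p : ℤ).natAbs by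
          simpa using (Nat.coprime_primes hℓ hp.out).2 hne)
      have h1 := congrArg (Int.cast : ℤ → 𝓞 M) hab
      push_cast at h1
      rw [← h1]
      exact add_mem (v.asIdeal.mul_mem_left _ hv) (v.asIdeal.mul_mem_left _ hpv)
    haveI : NeZero (p ^ (n + 1)) := ⟨pow_ne_zero _ hp.out.ne_zero⟩
    have hdvd : p ^ (n + 1) ∣ ℓ ^ f - 1 := by
      have h := orderOf_mod_dvd (v := v) (m := p ^ (n + 1))
        (fun h => hpv (v.isPrime.mem_of_pow_mem (n + 1) (by rwa [← Nat.cast_pow])))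
        hz.toInteger_isPrimitiveRoot
      rwa [hf] at h
    have hu : p ∣ ℓ ^ (p - 1) - 1 :=
      (Nat.modEq_iff_dvd' (Nat.one_le_pow _ _ hℓ.pos)).1
        (Nat.ModEq.pow_card_sub_one_eq_one hp.out ((Nat.coprime_primes hℓ hp.out).2 hne)).symm
    have hu1 : 1 < ℓ ^ (p - 1) := Nat.one_lt_pow (by omega) hℓ.one_lt
    have hval := padicValNat.pow_sub_pow (p := p) (hp.out.odd_of_ne_two hp2) hu1 hu
      (fun h => hne ((Nat.prime_dvd_prime_iff_eq hp.out hℓ).1 (hp.out.dvd_of_dvd_pow h)).symm)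
      hf0.ne'
    rw [one_pow] at hval
    have hne1 : (ℓ ^ (p - 1)) ^ f - 1 ≠ 0 :=
      Nat.sub_ne_zero_of_lt (Nat.one_lt_pow hf0.ne' hu1)
    have h2 : p ^ (n + 1) ∣ (ℓ ^ (p - 1)) ^ f - 1 := by
      refine hdvd.trans ?_
      rw [← pow_mul, mul_comm, pow_mul]
      exact Nat.sub_one_dvd_pow_sub_one _ _
    have h3 : n + 1 ≤ k + padicValNat p f := hval ▸ (padicValNat_dvd_iff_le hne1).1 h2
    calc p ^ n ≤ p ^ (k + padicValNat p f) := Nat.pow_le_pow_right hp.out.pos (by omega)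
      _ = p ^ k * p ^ padicValNat p f := pow_add _ _ _
      _ ≤ p ^ k * (1 * f) := by
        rw [one_mul]
        exact Nat.mul_le_mul_left _ (Nat.le_of_dvd hf0 pow_padicValNat_dvd)

end FA.MuExtensions
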