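import Fermat.Agent.MuExtensions.Rank
import Fermat.Agent.MuExtensions.Primes
import Fermat.Agent.MuExtensions.Compositum

/-!
# Bounded `p`-ranks ascend in `p`-extensions

If the elements killed by `p` in the class groups of `K(ζ_{p^(n+1)})` are bounded in number then
so are those in the class groups of `E(ζ_{p^(n+1)})` for every Galois `p`-extension `E/K`
(`exists_rank_bound`): a `p`-group has a central subgroup of order `p`, and in a cyclic step of
degree `p` boundedly many primes ramify.

Classical (Iwasawa).
-/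

set_option autoImplicit false
set_option linter.unusedSectionVars false
set_option linter.style.haveILetI false

noncomputable section

open NumberField IsDedekindDomain
open FA.ArtinRec (IsRam belowP finite_isRam)
open FA.IwasawaGrowth
open scoped Classical

namespace FA.MuExtensions

variable {K : Type} [Field K] [NumberField K] {p : ℕ} [hp : Fact p.Prime]

attribute [local instance] numberField_sub

/-- A prime contains a rational prime. -/
theorem exists_natCast_mem {M : Type} [Field M] [NumberField M] (v : HeightOneSpectrum (𝓞 M)) :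
    ∃ ℓ : ℕ, ℓ.Prime ∧ (ℓ : 𝓞 M) ∈ v.asIdeal := by
  haveI := v.isMaximal
  haveI : Finite (𝓞 M ⧸ v.asIdeal) := Ideal.finiteQuotientOfFreeOfNeBot _ v.ne_bot
  letI := Fintype.ofFinite (𝓞 M ⧸ v.asIdeal)
  letI := Ideal.Quotient.field v.asIdeal
  obtain ⟨q, hq⟩ := CharP.exists (𝓞 M ⧸ v.asIdeal)
  exact ⟨q, CharP.char_is_prime (𝓞 M ⧸ v.asIdeal) q,
    by rw [← Ideal.Quotient.eq_zero_iff_mem, map_natCast, CharP.cast_eq_zero]⟩

/-- Equal fields have equal class groups. -/
theorem card_torsion_of_eq {A B : IntermediateField K (AlgebraicClosure K)} [FiniteDimensional K A]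
    [FiniteDimensional K B] (h : A = B) (q : ℕ) :
    Nat.card {x : ClassGroup (𝓞 A) // x ^ q = 1} =
      Nat.card {x : ClassGroup (𝓞 B) // x ^ q = 1} := by
  subst h
  rfl

variable (E : IntermediateField K (AlgebraicClosure K)) [FiniteDimensional K E] [IsGalois K E]

/-- Few primes ramify from `E'(ζ)` to `E(ζ)`. -/
theorem exists_card_ram_le (hp2 : p ≠ 2) (E' : IntermediateField K (AlgebraicClosure K))
    [FiniteDimensional K E'] [IsGalois K E'] :
    ∃ T : ℕ, ∀ (n : ℕ) (hle : comp p E' n ≤ comp p E n),
      letI : Algebra (comp p E' n) (comp p E n) :=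
        (IntermediateField.inclusion hle).toRingHom.toAlgebra
      Nat.card {v : HeightOneSpectrum (𝓞 (comp p E' n)) // IsRam (comp p E n) v} ≤ T := by
  haveI : Finite {v : HeightOneSpectrum (𝓞 K) // IsRam E v} := (finite_isRam K E).to_subtype
  haveI := Fintype.ofFinite {v : HeightOneSpectrum (𝓞 K) // IsRam E v}
  choose ℓ hℓ hℓv using fun w : {v : HeightOneSpectrum (𝓞 K) // IsRam E v} =>
    exists_natCast_mem w.1
  choose C hC using fun w => exists_card_primes_le hp2 (hℓ w)
  set D := Module.finrank ℚ K * Module.finrank K (comp p E' 0)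
  refine ⟨∑ w, C w * D, fun n hle => ?_⟩
  letI : Algebra (comp p E' n) (comp p E n) :=
    (IntermediateField.inclusion hle).toRingHom.toAlgebra
  haveI : IsScalarTower K (comp p E' n) (comp p E n) :=
    IsScalarTower.of_algebraMap_eq fun _ => rfl
  have hfin : ∀ ℓ' : ℕ, ℓ'.Prime →
      Finite {v : HeightOneSpectrum (𝓞 (comp p E' n)) // (ℓ' : 𝓞 (comp p E' n)) ∈ v.asIdeal} :=
    fun ℓ' hℓ' => ((Ideal.finite_factors (I := Ideal.span {(ℓ' : 𝓞 (comp p E' n))})
      (by simp [hℓ'.ne_zero])).subset fun v hv => Ideal.dvd_span_singleton.mpr hv).to_subtype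
  haveI := fun w => hfin (ℓ w) (hℓ w)
  have key : ∀ v : HeightOneSpectrum (𝓞 (comp p E' n)), IsRam (comp p E n) v →
      ∃ w, (ℓ w : 𝓞 (comp p E' n)) ∈ v.asIdeal := fun v hv => by
    obtain ⟨Q, hQ, hne⟩ := hv
    obtain ⟨⟨s, hs⟩, hs1⟩ := Subgroup.ne_bot_iff_exists_ne_one.1 hne
    set s' : comp p E n ≃ₐ[K] comp p E n := s.restrictScalars K
    have hs' : s' ∈ Q.asIdeal.inertia (comp p E n ≃ₐ[K] comp p E n) := fun y => hs y
    have h2 : res (cycOver_le_comp p E n) s' = 1 := AlgEquiv.ext fun x => Subtype.ext (by
      rw [coe_res]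
      exact congrArg (fun y : comp p E n => (y : AlgebraicClosure K))
        (s.commutes (⟨x, cycOver_le_comp p E' n x.2⟩ : (comp p E' n))))
    have h1 : res (left_le_comp p E n) s' ≠ 1 := fun h => hs1 (Subtype.ext (by
      have h3 := eq_one_of_res (left_le_comp p E n) (cycOver_le_comp p E n) le_rfl h h2
      exact AlgEquiv.ext fun y => DFunLike.congr_fun h3 y))
    have hw : IsRam E (belowP K Q) := ⟨under' (left_le_comp p E n) Q,
      belowP_under' (left_le_comp p E n) Q,
      fun hbot => h1 (Subgroup.mem_bot.1 (hbot ▸ res_mem_inertia (left_le_comp p E n) hs'))⟩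
    refine ⟨⟨_, hw⟩, ?_⟩
    have h4 := hℓv ⟨_, hw⟩
    change _ ∈ Q.asIdeal.under (𝓞 K) at h4
    rw [Ideal.mem_comap, map_natCast] at h4
    rw [← hQ]
    show _ ∈ Q.asIdeal.under (𝓞 (comp p E' n))
    rw [Ideal.mem_comap, map_natCast]
    exact h4
  choose g hg using key
  refine (Nat.card_le_card_of_injective
    (fun v : {v : HeightOneSpectrum (𝓞 (comp p E' n)) // IsRam (comp p E n) v} =>
      (⟨g v.1 v.2, v.1, hg v.1 v.2⟩ : Σ w,
        {v : HeightOneSpectrum (𝓞 (comp p E' n)) // (ℓ w : 𝓞 (comp p E' n)) ∈ v.asIdeal}))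
    fun v v' h => Subtype.ext (congrArg (fun x => x.2.1) h)).trans ?_
  rw [Nat.card_sigma]
  refine Finset.sum_le_sum fun w _ => ?_
  obtain ⟨z, hz⟩ := exists_primitive (K := K) (p := p) n
  have h1 := hC w n (comp p E' n) (IntermediateField.inclusion (cycOver_le_comp p E' n) z)
    (hz.map_of_injective (IntermediateField.inclusion (cycOver_le_comp p E' n)).injective)
  refine Nat.le_of_mul_le_mul_right (h1.trans ?_) (pow_pos hp.out.pos n)
  rw [← Module.finrank_mul_finrank ℚ K (comp p E' n), mul_assoc]
  refine Nat.mul_le_mul_left _ ?_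
  rw [mul_assoc]
  exact Nat.mul_le_mul_left _ (finrank_comp_le E' n)

/-- **Bounded ranks ascend.** -/
theorem exists_rank_bound (hp2 : p ≠ 2) (hζ : ∃ ζ : K, IsPrimitiveRoot ζ p)
    (hE : IsPGroup p (E ≃ₐ[K] E))
    (hK : ∃ C, ∀ n, Nat.card {x : ClassGroup (𝓞 (cycOver K p n)) // x ^ p = 1} ≤ C) :
    ∃ C, ∀ n, Nat.card {x : ClassGroup (𝓞 (comp p E n)) // x ^ p = 1} ≤ C := by
  obtain ⟨d, hd⟩ : ∃ d, Module.finrank K E = d := ⟨_, rfl⟩
  induction d using Nat.strong_induction_on generalizing E with
  | _ d ih =>
    obtain ⟨C, hC⟩ := hK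
    rcases subsingleton_or_nontrivial (E ≃ₐ[K] E) with hs | hs
    · have hbot : E = ⊥ := IntermediateField.finrank_eq_one_iff.1
        ((IsGalois.card_aut_eq_finrank K E).symm.trans Nat.card_unique)
      refine ⟨C, fun n => ?_⟩
      rw [card_torsion_of_eq (B := cycOver K p n) (show comp p E n = _ by
        rw [comp, hbot, bot_sup_eq]) p]
      exact hC n
    -- a central subgroup of order `p`
    haveI := hE.center_nontrivial
    obtain ⟨k, hk, hk'⟩ := (hE.to_subgroup (Subgroup.center _)).nontrivial_iff_card.1 this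
    obtain ⟨z, hz⟩ := exists_prime_orderOf_dvd_card' (G := Subgroup.center (E ≃ₐ[K] E)) p
      (hk' ▸ dvd_pow_self p hk.ne')
    set N := Subgroup.zpowers (z.1 : E ≃ₐ[K] E)
    have hN : Nat.card N = p := by rw [Nat.card_zpowers, Subgroup.orderOf_coe, hz]
    have : N.Normal := ⟨fun x hx g => by
      rwa [Subgroup.mem_center_iff.1 (Subgroup.zpowers_le.2 z.2 hx) g, mul_inv_cancel_right]⟩
    set E' := IntermediateField.lift (IntermediateField.fixedField N)
    let eE : IntermediateField.fixedField N ≃ₐ[K] E' := IntermediateField.liftAlgEquiv _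
    haveI : IsGalois K (IntermediateField.fixedField N) :=
      IsGalois.of_fixedField_normal_subgroup N
    haveI : FiniteDimensional K E' := eE.toLinearEquiv.finiteDimensional
    haveI : IsGalois K E' := IsGalois.of_algEquiv eE
    have hE'E : E' ≤ E := IntermediateField.lift_le _
    have hsurj := res_surjective (L := E') (N := E) hE'E
    have hE' : IsPGroup p (E' ≃ₐ[K] E') := hE.of_surjective _ hsurj
    have hsubE : Nat.card (sub hE'E) = p := by
      rw [sub, show IntermediateField.restrict hE'E = IntermediateField.fixedField N from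
        IntermediateField.lift_injective E (IntermediateField.lift_restrict hE'E),
        IntermediateField.fixingSubgroup_fixedField, hN]
    have hlt : Module.finrank K E' < d := by
      rw [← hd, ← IsGalois.card_aut_eq_finrank, ← IsGalois.card_aut_eq_finrank,
        ← Subgroup.card_mul_index (sub hE'E), hsubE, ← ker_res, Subgroup.index_ker,
        MonoidHom.range_eq_top.2 hsurj, Subgroup.card_top]
      exact lt_mul_of_one_lt_left Nat.card_pos hp.out.one_lt
    obtain ⟨C', hC'⟩ := ih _ hlt E' hE' rfl
    obtain ⟨T, hT⟩ := exists_card_ram_le E hp2 E'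
    refine ⟨max C' ((p ^ (T + 1) * C') ^ p), fun n => ?_⟩
    have hle : comp p E' n ≤ comp p E n := sup_le_sup_right hE'E _
    letI : Algebra (comp p E' n) (comp p E n) :=
      (IntermediateField.inclusion hle).toRingHom.toAlgebra
    haveI : IsScalarTower K (comp p E' n) (comp p E n) :=
      IsScalarTower.of_algebraMap_eq fun _ => rfl
    haveI : IsGalois (comp p E' n) (comp p E n) := IsGalois.tower_top_of_isGalois K _ _

    have hker : Nat.card (res (K := K) hle).ker ∣ p := by
      refine dvd_trans ?_ (dvd_of_eq hsubE)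
      let f : (res (K := K) hle).ker →* sub hE'E :=
        ((res (left_le_comp p E n)).comp (res (K := K) hle).ker.subtype).codRestrict _ fun s => by
          show res (left_le_comp p E n) s.1 ∈ sub hE'E
          rw [← ker_res, MonoidHom.mem_ker, res_trans,
            ← res_trans (left_le_comp p E' n) hle, MonoidHom.mem_ker.1 s.2, map_one]
      refine Subgroup.card_dvd_of_injective f fun s s' h => ?_
      refine Subtype.ext (mul_inv_eq_one.1 (eq_one_of_res (left_le_comp p E n)
        (cycOver_le_comp p E n) le_rfl ?_ ?_))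
      · rw [map_mul, map_inv, mul_inv_eq_one]
        exact congrArg Subtype.val h
      · have h1 : ∀ t : (res (K := K) hle).ker, res (cycOver_le_comp p E n) t.1 = 1 := fun t => by
          rw [← res_trans (cycOver_le_comp p E' n) hle, MonoidHom.mem_ker.1 t.2, map_one]
        rw [map_mul, map_inv, h1, h1, inv_one, mul_one]
    have hmul : Module.finrank K (comp p E' n) * Nat.card (res (K := K) hle).ker =
        Module.finrank K (comp p E n) := by
      rw [← IsGalois.card_aut_eq_finrank, ← IsGalois.card_aut_eq_finrank,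
        ← Subgroup.card_mul_index (res (K := K) hle).ker, Subgroup.index_ker,
        MonoidHom.range_eq_top.2 (res_surjective hle), Subgroup.card_top, mul_comm]
    have hrel : Module.finrank (comp p E' n) (comp p E n) = Nat.card (res (K := K) hle).ker :=
      Nat.eq_of_mul_eq_mul_left Module.finrank_pos
        ((Module.finrank_mul_finrank K (comp p E' n) (comp p E n)).trans hmul.symm)
    rcases (Nat.dvd_prime hp.out).1 hker with h1 | h1
    · have heq : comp p E' n = comp p E n :=
        IntermediateField.eq_of_le_of_finrank_eq hle (by rw [← hmul, h1, mul_one])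
      rw [← card_torsion_of_eq heq p]
      exact (hC' n).trans (le_max_left _ _)
    · refine (card_torsion_le_of_cyclic hp2 (comp p E' n) (comp p E n) (hrel.trans h1)).trans
        (le_trans (Nat.pow_le_pow_left (Nat.mul_le_mul ?_ (hC' n)) p) (le_max_right _ _))
      exact Nat.pow_le_pow_right hp.out.pos (Nat.add_le_add_right (hT n hle) 1)

end FA.MuExtensions
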