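import Fermat.Agent.FerreroWashington.Tower
import Mathlib.FieldTheory.KummerExtension
import Mathlib.Data.Rat.Lemmas

/-!
# A non-abelian example

For odd `p` the field `ℚ(ζ_p, 2^(1/p))` is Galois of degree `p` over `ℚ(ζ_p)` and its group over
`ℚ` is not commutative (`exists_kummer_example`).
-/

set_option autoImplicit false
set_option linter.unusedSectionVars false
set_option linter.style.haveILetI false

noncomputable section

open Polynomial
open FA.FerreroWashington (Base)

namespace FA.MuExtensions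

variable (p : ℕ) [hp : Fact p.Prime]

/-- `2` is no `p`-th power in `ℚ(ζ_p)`. -/
theorem two_ne_pow (hp2 : p ≠ 2) (b : Base p) : b ^ p ≠ 2 := fun h => by
  haveI : NeZero p := ⟨hp.out.ne_zero⟩
  have h1 := congrArg (Algebra.norm ℚ) h
  rw [map_pow, show (2 : Base p) = algebraMap ℚ (Base p) 2 from (map_ofNat _ 2).symm,
    Algebra.norm_algebraMap, IsCyclotomicExtension.Rat.finrank p, Nat.totient_prime hp.out] at h1
  have hN : Algebra.norm ℚ b ≠ 0 := fun h0 => by
    rw [h0, zero_pow hp.out.ne_zero] at h1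
    exact pow_ne_zero _ two_ne_zero h1.symm
  have h2 := congrArg (padicValRat 2) h1
  haveI : Fact (2 : ℕ).Prime := ⟨Nat.prime_two⟩
  rw [padicValRat.pow, padicValRat.pow,
    show padicValRat 2 (2 : ℚ) = 1 by exact_mod_cast padicValRat.self one_lt_two, mul_one] at h2
  have h3 : (p : ℤ) ∣ ((p - 1 : ℕ) : ℤ) := ⟨_, h2.symm⟩
  have := hp.out.two_le
  have := Nat.le_of_dvd (by omega) (Int.natCast_dvd_natCast.1 h3)
  omega

/-- `ℚ(ζ_p, 2^(1/p))`. -/
abbrev Kummer : Type := (X ^ p - C (2 : Base p)).SplittingField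

instance numberField_kummer : NumberField (Kummer p) :=
  NumberField.of_module_finite (Base p) _

/-- **The example.** -/
theorem exists_kummer_example (hp2 : p ≠ 2) :
    IsGalois (Base p) (Kummer p) ∧ Module.finrank (Base p) (Kummer p) = p ∧
      ∃ s t : Kummer p ≃ₐ[ℚ] Kummer p, s * t ≠ t * s := by
  haveI : NeZero p := ⟨hp.out.ne_zero⟩
  have H : Irreducible (X ^ p - C (2 : Base p)) :=
    X_pow_sub_C_irreducible_of_prime hp.out (two_ne_pow p hp2)
  set ζ := IsCyclotomicExtension.zeta p ℚ (Base p)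
  have hζ : IsPrimitiveRoot ζ p := IsCyclotomicExtension.zeta_spec p ℚ (Base p)
  have hne : (primitiveRoots p (Base p)).Nonempty :=
    ⟨ζ, (mem_primitiveRoots hp.out.pos).2 hζ⟩
  haveI := isGalois_of_isSplittingField_X_pow_sub_C hne H (Kummer p)
  refine ⟨inferInstance, finrank_of_isSplittingField_X_pow_sub_C hne H (Kummer p), ?_⟩
  set β := rootOfSplitsXPowSubC (NeZero.pos p) (2 : Base p) (Kummer p)
  have hβ : β ^ p = algebraMap (Base p) (Kummer p) 2 :=
    rootOfSplitsXPowSubC_pow (2 : Base p) (Kummer p)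
  have hβ2 : β ^ p = 2 := hβ.trans (map_ofNat (algebraMap (Base p) (Kummer p)) 2)
  set z : Kummer p := algebraMap (Base p) (Kummer p) ζ
  have hz : IsPrimitiveRoot z p := hζ.map_of_injective (algebraMap (Base p) _).injective
  let s : Kummer p ≃ₐ[Base p] Kummer p :=
    (autEquivZmod H (Kummer p) hζ).symm (Multiplicative.ofAdd ((1 : ℕ) : ZMod p))
  have hsβ : s β = z * β := by
    rw [autEquivZmod_symm_apply_natCast H (Kummer p) (rootOfSplitsXPowSubC_pow _ _) hζ 1, pow_one,
      Algebra.smul_def]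
  -- an automorphism squaring `ζ`
  have hirr := Polynomial.cyclotomic.irreducible_rat hp.out.pos
  have h2 : Nat.Coprime 2 p :=
    (Nat.coprime_primes Nat.prime_two hp.out).2 (Ne.symm hp2)
  let g : Base p ≃ₐ[ℚ] Base p :=
    IsCyclotomicExtension.fromZetaAut (hζ.pow_of_coprime 2 h2) hirr
  have hg : g ζ = ζ ^ 2 := IsCyclotomicExtension.fromZetaAut_spec _ hirr
  haveI : IsSplittingField (Base p) (Kummer p)
      ((X ^ p - C (2 : ℚ)).map (algebraMap ℚ (Base p))) := by
    rw [Polynomial.map_sub, Polynomial.map_pow, map_X, map_C]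
    convert Polynomial.IsSplittingField.splittingField (X ^ p - C (2 : Base p)) using 4
    exact map_ofNat (algebraMap ℚ (Base p)) 2
  haveI : IsSplittingField ℚ (Base p) (cyclotomic p ℚ) :=
    IsCyclotomicExtension.splitting_field_cyclotomic p ℚ (Base p)
  haveI : IsSplittingField ℚ (Kummer p) (cyclotomic p ℚ * (X ^ p - C (2 : ℚ))) :=
    Polynomial.IsSplittingField.mul (Kummer p) (K := Base p) _ _ (cyclotomic_ne_zero p ℚ)
      (monic_X_pow_sub_C (2 : ℚ) hp.out.ne_zero).ne_zero
  haveI : Normal ℚ (Kummer p) :=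
    Normal.of_isSplittingField (cyclotomic p ℚ * (X ^ p - C (2 : ℚ)))
  let t : Kummer p ≃ₐ[ℚ] Kummer p := g.liftNormal (Kummer p)
  have htz : t z = z ^ 2 := by
    rw [show t z = algebraMap (Base p) (Kummer p) (g ζ) from g.liftNormal_commutes (Kummer p) ζ,
      hg, map_pow]
  have hβ0 : β ≠ 0 := fun h0 => by
    rw [h0, zero_pow hp.out.ne_zero] at hβ2
    exact two_ne_zero hβ2.symm
  obtain ⟨j, -, hj⟩ := hz.eq_pow_of_pow_eq_one (ξ := t β / β) (by
    rw [div_pow, ← map_pow, hβ2]
    exact (congrArg (· / (2 : Kummer p)) (map_ofNat t 2)).trans (div_self two_ne_zero))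
  have htβ : t β = z ^ j * β := by rw [hj, div_mul_cancel₀ _ hβ0]
  refine ⟨s.restrictScalars ℚ, t, fun hst => hz.ne_one hp.out.one_lt ?_⟩
  have h1 := DFunLike.congr_fun hst β
  rw [AlgEquiv.mul_apply, AlgEquiv.mul_apply, htβ] at h1
  change s (z ^ j * β) = t (s β) at h1
  rw [map_mul, map_pow, show s z = z from s.commutes ζ, hsβ, map_mul, htz, htβ] at h1
  have h3 : z * (z ^ j * β) = z * (z * (z ^ j * β)) := by linear_combination h1
  have hz0 : z ≠ 0 := hz.ne_zero hp.out.ne_zero
  have h4 := mul_left_cancel₀ hz0 h3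
  exact (mul_eq_right₀ (mul_ne_zero (pow_ne_zero _ hz0) hβ0)).1 h4.symm

end FA.MuExtensions
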