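import Mathlib

/-!
# Group theory for `p`-ranks in cyclic extensions of degree `p`

An endomorphism `T` with `T ^ k = 0` of a finite abelian group `V` gives `|V| ≤ |V / T V| ^ k`
(`card_le_index_pow`). If `σ` generates `G` modulo a normal abelian subgroup `A` of index `p`, then
`|A[p]| ≤ [A : A ^ p [σ, A]] ^ p` (`card_torsion_le_index_pow`). A finite abelian image of `C` with
an elementary subgroup of index at most `p` has at most `p |C[p]|` elements (`card_le_of_image`).
-/

set_option autoImplicit false
set_option linter.unusedSectionVars false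
set_option linter.style.haveILetI false

noncomputable section

namespace FA.MuExtensions

/-- The range of an endomorphism. -/
def endRange {V : Type*} [AddCommGroup V] (T : AddMonoid.End V) : AddSubgroup V :=
  AddMonoidHom.range (T : V →+ V)

/-- A nilpotent endomorphism and its cokernel. -/
theorem card_le_index_pow {V : Type*} [AddCommGroup V] [Finite V] {T : AddMonoid.End V} {k : ℕ}
    (hT : T ^ k = 0) : Nat.card V ≤ (endRange T).index ^ k := by
  set q := (endRange T).index
  have key : ∀ j, (endRange (T ^ j)).index ≤ q ^ j := fun j => by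
    induction j with
    | zero =>
      have : endRange (T ^ 0) = ⊤ := AddMonoidHom.range_eq_top.2 fun x => ⟨x, rfl⟩
      rw [this, AddSubgroup.index_top, pow_zero]
    | succ j ih =>
      let f : V →+ V := T ^ j
      have h1 : endRange (T ^ (j + 1)) = (endRange T).map f := by
        rw [pow_succ]
        exact AddMonoidHom.range_comp _ _
      rw [h1, AddSubgroup.index_map, pow_succ' q]
      exact Nat.mul_le_mul (Nat.le_of_dvd (Nat.pos_of_ne_zero AddSubgroup.FiniteIndex.index_ne_zero)
        (AddSubgroup.index_dvd_of_le le_sup_left)) ih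
  have h := key k
  rw [hT, show endRange (0 : AddMonoid.End V) = ⊥ from AddMonoidHom.range_eq_bot_iff.2 rfl,
    AddSubgroup.index_bot] at h
  exact h

variable {p : ℕ} [hp : Fact p.Prime]

/-- An endomorphism with `(1 + T) ^ p = 1` of a group killed by `p` has `T ^ p = 0`. -/
theorem pow_prime_eq_zero {V : Type*} [AddCommGroup V] {T : AddMonoid.End V}
    (hT : (1 + T) ^ p = 1) (hV : ∀ x : V, p • x = 0) : T ^ p = 0 := by
  obtain ⟨R, hR⟩ := Commute.exists_add_pow_prime_eq hp.out
    (Commute.one_left (Polynomial.X : Polynomial ℤ))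
  have h := congrArg (Polynomial.aeval T) hR
  simp only [map_add, map_mul, map_pow, map_natCast, map_one, Polynomial.aeval_X, one_pow,
    hT] at h
  have hp0 : (p : AddMonoid.End V) = 0 := AddMonoidHom.ext fun x =>
    (AddMonoid.End.natCast_apply _ _).trans (hV x)
  rw [hp0, zero_mul, zero_mul, zero_mul, add_zero, left_eq_add] at h
  exact h

variable {G : Type*} [Group G] [Finite G] (A : Subgroup G) [hA : A.Normal]

/-- `A ^ p [σ, A]`. -/
def commPow (p : ℕ) (σ : G) : Subgroup A :=
  Subgroup.closure (Set.range (fun a : A => a ^ p) ∪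
    Set.range fun a : A => MulAut.conjNormal σ a * a⁻¹)

/-- **The bound on the elements killed by `p`.** -/
theorem card_torsion_le_index_pow (hAc : ∀ a ∈ A, ∀ b ∈ A, a * b = b * a) {σ : G}
    (hσ : σ ^ p ∈ A) :
    Nat.card {a : A // a ^ p = 1} ≤ (commPow A p σ).index ^ p := by
  letI : CommGroup A :=
    { (inferInstance : Group A) with mul_comm := fun a b => Subtype.ext (hAc a a.2 b b.2) }
  set R := (powMonoidHom p : A →* A).range
  have hR : ∀ g : G, R ≤ R.comap (MulAut.conjNormal g : MulAut A).toMonoidHom := fun g => by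
    rintro _ ⟨a, rfl⟩
    exact ⟨MulAut.conjNormal g a, (map_pow _ a p).symm⟩
  let E : G →* AddMonoid.End (Additive (A ⧸ R)) :=
    { toFun := fun g => MonoidHom.toAdditive
        (QuotientGroup.map R R (MulAut.conjNormal g : MulAut A).toMonoidHom (hR g))
      map_one' := AddMonoidHom.ext fun x => by
        obtain ⟨x, rfl⟩ := Additive.ofMul.surjective x
        obtain ⟨a, rfl⟩ := QuotientGroup.mk_surjective x
        show Additive.ofMul ((MulAut.conjNormal 1 : MulAut A) a : A ⧸ R) = _
        rw [map_one]
        rfl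
      map_mul' := fun g h => AddMonoidHom.ext fun x => by
        obtain ⟨x, rfl⟩ := Additive.ofMul.surjective x
        obtain ⟨a, rfl⟩ := QuotientGroup.mk_surjective x
        show Additive.ofMul ((MulAut.conjNormal (g * h) : MulAut A) a : A ⧸ R) = _
        rw [map_mul]
        rfl }
  have hmk : ∀ (g : G) (a : A), E g (Additive.ofMul (a : A ⧸ R)) =
      Additive.ofMul ((MulAut.conjNormal g a : A) : A ⧸ R) := fun g a => rfl
  set T : AddMonoid.End (Additive (A ⧸ R)) := E σ - 1 with hTdef
  have hkill : ∀ x : Additive (A ⧸ R), p • x = 0 := fun x => by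
    obtain ⟨x, rfl⟩ := Additive.ofMul.surjective x
    obtain ⟨a, rfl⟩ := QuotientGroup.mk_surjective x
    exact congrArg Additive.ofMul ((QuotientGroup.eq_one_iff (a ^ p)).2 ⟨a, rfl⟩)
  have hT : T ^ p = 0 := by
    refine pow_prime_eq_zero ?_ hkill
    rw [hTdef, add_sub_cancel, ← map_pow]
    refine AddMonoidHom.ext fun x => ?_
    obtain ⟨x, rfl⟩ := Additive.ofMul.surjective x
    obtain ⟨a, rfl⟩ := QuotientGroup.mk_surjective x
    refine (hmk _ _).trans (congrArg (fun b : A => Additive.ofMul (b : A ⧸ R)) (Subtype.ext ?_))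
    rw [MulAut.conjNormal_apply, hAc _ hσ _ a.2, mul_inv_cancel_right]
  have hcard : Nat.card {a : A // a ^ p = 1} = Nat.card (Additive (A ⧸ R)) := by
    rw [Nat.card_congr Additive.toMul, ← Subgroup.index_eq_card, Subgroup.index_range]
    rfl
  rw [hcard]
  refine (card_le_index_pow hT).trans (Nat.pow_le_pow_left ?_ p)
  -- the range of `T` is the image of `commPow`
  let π : A →* A ⧸ R := QuotientGroup.mk' R
  have hle : ((commPow A p σ).map π).toAddSubgroup ≤ endRange T := by
    intro x hx
    obtain ⟨a, ha, hax⟩ := hx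
    rw [show x = Additive.ofMul (π a) from congrArg Additive.ofMul hax.symm]
    clear hax x
    induction ha using Subgroup.closure_induction with
    | mem b hb =>
      rcases hb with ⟨c, rfl⟩ | ⟨c, rfl⟩
      · rw [show π (c ^ p) = 1 from (QuotientGroup.eq_one_iff _).2 ⟨c, rfl⟩]
        exact zero_mem _
      · refine ⟨Additive.ofMul (c : A ⧸ R), ?_⟩
        rw [map_mul, map_inv, ofMul_mul, ofMul_inv, ← sub_eq_add_neg]
        show E σ (Additive.ofMul (c : A ⧸ R)) - Additive.ofMul (c : A ⧸ R) = _
        rw [hmk]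
        rfl
    | one => rw [map_one]; exact zero_mem _
    | mul b c _ _ hb hc => rw [map_mul, ofMul_mul]; exact add_mem hb hc
    | inv b _ hb => rw [map_inv, ofMul_inv]; exact neg_mem hb
  refine (Nat.le_of_dvd (Nat.pos_of_ne_zero ?_) (AddSubgroup.index_dvd_of_le hle)).trans ?_
  · exact AddSubgroup.FiniteIndex.index_ne_zero
  rw [Subgroup.index_toAddSubgroup]
  exact Nat.le_of_dvd (Nat.pos_of_ne_zero Subgroup.FiniteIndex.index_ne_zero)
    (Subgroup.index_map_dvd (H := commPow A p σ) (QuotientGroup.mk'_surjective R))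

/-- An image of `C` with an elementary subgroup of index at most `p`. -/
theorem card_le_of_image {C Q : Type*} [CommGroup C] [Finite C] [CommGroup Q] (f : C →* Q)
    (hf : Function.Surjective f) (E : Subgroup Q) (hE : ∀ x ∈ E, x ^ p = 1)
    (hidx : E.index ≤ p) : Nat.card Q ≤ p * Nat.card {c : C // c ^ p = 1} := by
  haveI : Finite Q := Finite.of_surjective f hf
  have h1 : Nat.card E ≤ Nat.card {x : Q // x ^ p = 1} :=
    Nat.card_le_card_of_injective (fun x => ⟨x.1, hE x.1 x.2⟩)
      fun x y h => Subtype.ext (congrArg (fun z => z.1) h)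
  have h2 : Nat.card {x : Q // x ^ p = 1} ≤ Nat.card {c : C // c ^ p = 1} := by
    show Nat.card (powMonoidHom p : Q →* Q).ker ≤ Nat.card (powMonoidHom p : C →* C).ker
    rw [← Subgroup.index_range, ← Subgroup.index_range]
    refine Nat.le_of_dvd (Nat.pos_of_ne_zero Subgroup.FiniteIndex.index_ne_zero) ?_
    refine dvd_trans ?_ (Subgroup.index_map_dvd (H := (powMonoidHom p : C →* C).range) hf)
    refine Subgroup.index_dvd_of_le ?_
    rintro _ ⟨_, ⟨c, rfl⟩, rfl⟩
    exact ⟨f c, (map_pow f c p).symm⟩
  rw [← Subgroup.card_mul_index E, mul_comm]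
  exact Nat.mul_le_mul hidx (h1.trans h2)

end FA.MuExtensions
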