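import Fermat.Agent.MuExtensions.Descent
import Fermat.Agent.FerreroWashington.Main

/-!
# `μ = 0` in `p`-extensions of `ℚ(ζ_p)`

`K = ℚ(ζ_p)`, `L/K` a Galois extension of degree a power of `p`, `p` odd. The class groups of the
fields `L(ζ_{p^(n+1)})` have boundedly many elements killed by `p` and the exponent of `p` in their
orders is `λ n + ν` for large `n` (`exists_muZero_ext`); so have their subfields of index prime to
`p` boundedly many (`card_torsion_le_of_coprime`).

Classical (Iwasawa 1973 with Ferrero–Washington 1979).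
-/

set_option autoImplicit false
set_option linter.unusedSectionVars false
set_option linter.style.haveILetI false

noncomputable section

open NumberField
open FA.IwasawaGrowth
open scoped Classical

namespace FA.MuExtensions

variable {p : ℕ} [hp : Fact p.Prime] {K : Type} [Field K] [NumberField K]
  [IsCyclotomicExtension {p} ℚ K]

attribute [local instance] numberField_sub

/-- `ℚ(ζ_p)(ζ_{p^(n+1)})` is the cyclotomic field of the level `n`. -/
theorem isCyclotomic_cycOver_rat (n : ℕ) :
    IsCyclotomicExtension {p ^ (n + 1)} ℚ (cycOver K p n) := by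
  haveI : IsCyclotomicExtension ({p} ∪ {p ^ (n + 1)}) ℚ (cycOver K p n) :=
    IsCyclotomicExtension.trans _ _ ℚ K (cycOver K p n) (algebraMap K _).injective
  rw [IsCyclotomicExtension.iff_union_of_dvd ℚ (cycOver K p n) (n := p) (S := {p ^ (n + 1)})
    ⟨_, rfl, pow_ne_zero _ hp.out.ne_zero, dvd_pow_self p n.succ_ne_zero⟩, Set.union_comm]
  infer_instance

/-- Bounded ranks for `ℚ(ζ_{p^(n+1)})`. -/
theorem exists_rank_cycOver (hp2 : p ≠ 2) :
    ∃ C, ∀ n, Nat.card {x : ClassGroup (𝓞 (cycOver K p n)) // x ^ p = 1} ≤ C := by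
  obtain ⟨lam, nu, n₀, C, h⟩ := FA.FerreroWashington.exists_muZero.{0} (p := p) hp2
  refine ⟨C, fun n => ?_⟩
  haveI := isCyclotomic_cycOver_rat (K := K) (p := p) n
  exact (h n (cycOver K p n)).2

/-- Isomorphic fields have as many elements killed by `q`. -/
theorem card_torsion_congr {F F' : Type} [Field F] [NumberField F] [Field F'] [NumberField F']
    (e : F ≃+* F') (q : ℕ) :
    Nat.card {x : ClassGroup (𝓞 F) // x ^ q = 1} =
      Nat.card {x : ClassGroup (𝓞 F') // x ^ q = 1} :=
  (FA.FerreroWashington.card_classGroup_congr e q).2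

/-- **`μ = 0` along `E(ζ_{p^(n+1)})`.** -/
theorem exists_muZero_comp (hp2 : p ≠ 2) (E : IntermediateField K (AlgebraicClosure K))
    [FiniteDimensional K E] [IsGalois K E] (hE : IsPGroup p (E ≃ₐ[K] E)) :
    ∃ (lam : ℕ) (nu : ℤ) (n₀ C : ℕ), ∀ n,
      (n₀ ≤ n → (padicValNat p (classNumber (comp p E n)) : ℤ) = lam * n + nu) ∧
      Nat.card {x : ClassGroup (𝓞 (comp p E n)) // x ^ p = 1} ≤ C := by
  haveI : NeZero p := ⟨hp.out.ne_zero⟩
  have hζ : ∃ ζ : K, IsPrimitiveRoot ζ p :=
    IsCyclotomicExtension.exists_isPrimitiveRoot ℚ K (Set.mem_singleton p) hp.out.ne_zero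
  obtain ⟨C, hC⟩ := exists_rank_bound E hp2 hζ hE (exists_rank_cycOver hp2)
  obtain ⟨n₁, hn₁⟩ := exists_degree_eq E hζ hE
  set K' := comp p E n₁
  haveI : IsAlgClosure K' (AlgebraicClosure K) :=
    ⟨inferInstance, Algebra.IsAlgebraic.tower_top (K := K) K'⟩
  let e : AlgebraicClosure K ≃ₐ[K'] AlgebraicClosure K' :=
    IsAlgClosure.equiv K' (AlgebraicClosure K) (AlgebraicClosure K')
  have hle : ∀ j, K' ≤ comp p E (n₁ + j) := fun j => comp_mono p E (Nat.le_add_right n₁ j)
  let F : ℕ → IntermediateField K' (AlgebraicClosure K') := fun j =>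
    (IntermediateField.extendScalars (hle j)).map e.toAlgHom
  let ef : ∀ j, IntermediateField.extendScalars (hle j) ≃ₐ[K'] F j := fun j =>
    IntermediateField.equivMap _ e.toAlgHom
  have hfin : ∀ j, FiniteDimensional K' (IntermediateField.extendScalars (hle j)) := fun j =>
    haveI : FiniteDimensional K (IntermediateField.extendScalars (hle j)) :=
      finite_comp E (n₁ + j)
    Module.Finite.right K K' _
  have hgal : ∀ j, IsGalois K' (IntermediateField.extendScalars (hle j)) := fun j =>
    haveI : IsGalois K (IntermediateField.extendScalars (hle j)) := isGalois_comp E (n₁ + j)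
    IsGalois.tower_top_of_isGalois K K' _
  have hcyc : ∀ j, IsCyclic (F j ≃ₐ[K'] F j) := fun j => by
    haveI := isCyclic_sub_comp (p := p) E hp2 (Nat.le_add_right n₁ j)
    let φ : (IntermediateField.extendScalars (hle j) ≃ₐ[K'] IntermediateField.extendScalars (hle j))
        →* sub (hle j) :=
      { toFun := fun g => ⟨g.restrictScalars K, (mem_sub _).2 fun x hx =>
          g.commutes (⟨_, hx⟩ : K')⟩
        map_one' := rfl
        map_mul' := fun _ _ => rfl }
    haveI := isCyclic_of_injective φ fun g h hgh => AlgEquiv.ext fun x =>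
      DFunLike.congr_fun (congrArg Subtype.val hgh) x
    exact (ef j).autCongr.isCyclic.1 inferInstance
  let T : ZpTower p K' :=
    { field := F
      isGalois := fun j => haveI := hgal j; IsGalois.of_algEquiv (ef j)
      isCyclic := hcyc
      finrank_eq := fun j => by
        haveI := hfin j
        rw [← (ef j).toLinearEquiv.finrank_eq]
        refine Nat.eq_of_mul_eq_mul_left (Module.finrank_pos (R := K) (M := K'))
          ((Module.finrank_mul_finrank K K' _).trans ?_)
        exact (hn₁ j).trans (mul_comm _ _)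
      mono := fun i j h => IntermediateField.map_mono _ fun x hx =>
        comp_mono p E (Nat.add_le_add_left h n₁) hx }
  haveI : ∀ j, FiniteDimensional K' (T.field j) := fun j =>
    haveI := hfin j
    (ef j).toLinearEquiv.finiteDimensional
  have hnf : ∀ j, NumberField (IntermediateField.extendScalars (hle j)) := fun j =>
    haveI := hfin j
    NumberField.of_module_finite K' _
  let ec : ∀ j, comp p E (n₁ + j) ≃+* T.field j := fun j =>
    (RingEquiv.refl _ : comp p E (n₁ + j) ≃+* IntermediateField.extendScalars (hle j)).trans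
      (ef j).toRingEquiv
  obtain ⟨lam, nu, n₀, h, -⟩ := T.mu_eq_zero_of_le (a := 0) (b := C) (n₁ := 0) fun j _ => by
    refine le_trans (le_of_eq ?_) ((hC (n₁ + j)).trans ?_)
    · exact (card_torsion_congr (ec j) p).symm
    · rw [zero_mul, zero_add]
      exact (Nat.lt_pow_self hp.out.one_lt).le
  refine ⟨lam, nu - lam * n₁, n₁ + n₀, C, fun n => ⟨fun hn => ?_, hC n⟩⟩
  obtain ⟨j, rfl⟩ := Nat.exists_eq_add_of_le ((Nat.le_add_right n₁ n₀).trans hn)
  rw [(FA.FerreroWashington.card_classGroup_congr (ec j) p).1]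
  rw [h j (by omega)]
  push_cast
  ring

omit [IsCyclotomicExtension {p} ℚ K] in
/-- The level `n` over an extension `L` is `E(ζ_{p^(n+1)})` for the image `E` of `L`. -/
theorem nonempty_equiv_comp {L : Type} [Field L] [NumberField L] [Algebra K L] [IsGalois K L]
    (f : L →ₐ[K] AlgebraicClosure K) [FiniteDimensional K f.fieldRange] [IsGalois K f.fieldRange]
    (n : ℕ) (M : Type) [Field M] [NumberField M] [Algebra L M]
    [IsCyclotomicExtension {p ^ (n + 1)} L M] : Nonempty (M ≃+* comp p f.fieldRange n) := by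
  haveI : NeZero (p ^ (n + 1)) := ⟨pow_ne_zero _ hp.out.ne_zero⟩
  letI : Algebra L (AlgebraicClosure K) := f.toRingHom.toAlgebra
  letI : Algebra K M := ((algebraMap L M).comp (algebraMap K L)).toAlgebra
  haveI : IsScalarTower K L M := IsScalarTower.of_algebraMap_eq fun _ => rfl
  haveI : IsScalarTower K L (AlgebraicClosure K) :=
    IsScalarTower.of_algebraMap_eq fun x => (f.commutes x).symm
  haveI : FiniteDimensional L M := IsCyclotomicExtension.finiteDimensional {p ^ (n + 1)} L M
  haveI : FiniteDimensional K M := Module.Finite.trans L M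
  let g₀ : M →ₐ[L] AlgebraicClosure K := IsAlgClosed.lift
  let g : M →ₐ[K] AlgebraicClosure K := g₀.restrictScalars K
  obtain ⟨z, hz⟩ := IsCyclotomicExtension.exists_isPrimitiveRoot L M
    (Set.mem_singleton (p ^ (n + 1))) (NeZero.ne _)
  have hrange : g.fieldRange = comp p f.fieldRange n := by
    refine le_antisymm ?_ (sup_le ?_ (IntermediateField.adjoin_le_iff.2 ?_))
    · rintro _ ⟨x, rfl⟩
      change g₀ x ∈ comp p f.fieldRange n
      refine Algebra.adjoin_induction (fun y hy => ?_) (fun r => ?_)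
        (fun y y' _ _ hy hy' => by rw [map_add]; exact add_mem hy hy')
        (fun y y' _ _ hy hy' => by rw [map_mul]; exact mul_mem hy hy')
        (((isCyclotomicExtension_iff {p ^ (n + 1)} L M).1 inferInstance).2 x)
      · obtain ⟨m, hm, hm0, hym⟩ := hy
        rw [Set.mem_singleton_iff.1 hm] at hym
        exact cycOver_le_comp p f.fieldRange n (coe_pow_mem (by rw [← map_pow, hym, map_one]))
      · rw [AlgHom.commutes]
        exact left_le_comp p f.fieldRange n ⟨r, rfl⟩
    · rintro _ ⟨r, rfl⟩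
      exact ⟨algebraMap L M r, g₀.commutes r⟩
    · rintro b ⟨m, hm, -, hb⟩
      rw [Set.mem_singleton_iff.1 hm] at hb
      obtain ⟨i, -, hi⟩ := (hz.map_of_injective g₀.injective).eq_pow_of_pow_eq_one hb
      exact ⟨z ^ i, (map_pow g₀ z i).trans hi⟩
  exact ⟨((AlgEquiv.ofInjectiveField g).trans (IntermediateField.equivOfEq hrange)).toRingEquiv⟩

/-- **`μ = 0` in every Galois `p`-extension of `ℚ(ζ_p)`.** -/
theorem exists_muZero_ext (hp2 : p ≠ 2) (L : Type) [Field L] [NumberField L] [Algebra K L]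
    [IsGalois K L] {a : ℕ} (hdeg : Module.finrank K L = p ^ a) :
    ∃ (lam : ℕ) (nu : ℤ) (n₀ C : ℕ), ∀ n, ∀ (M : Type) [Field M] [NumberField M] [Algebra L M]
      [IsCyclotomicExtension {p ^ (n + 1)} L M],
        (n₀ ≤ n → (padicValNat p (classNumber M) : ℤ) = lam * n + nu) ∧
        Nat.card {x : ClassGroup (𝓞 M) // x ^ p = 1} ≤ C := by
  let f : L →ₐ[K] AlgebraicClosure K := IsAlgClosed.lift
  set E := f.fieldRange
  let eL : L ≃ₐ[K] E := AlgEquiv.ofInjectiveField f
  haveI : FiniteDimensional K E := eL.toLinearEquiv.finiteDimensional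
  haveI : IsGalois K E := IsGalois.of_algEquiv eL
  have hE : IsPGroup p (E ≃ₐ[K] E) := IsPGroup.of_card (n := a) (by
    rw [IsGalois.card_aut_eq_finrank, ← eL.toLinearEquiv.finrank_eq, hdeg])
  obtain ⟨lam, nu, n₀, C, h⟩ := exists_muZero_comp hp2 E hE
  refine ⟨lam, nu, n₀, C, fun n M _ _ _ _ => ?_⟩
  obtain ⟨eM⟩ := nonempty_equiv_comp (p := p) f n M
  obtain ⟨h1, h2⟩ := FA.FerreroWashington.card_classGroup_congr eM.symm p
  refine ⟨fun hn => ?_, (card_torsion_congr eM p).trans_le (h n).2⟩
  rw [← h1]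
  exact (h n).1 hn

omit [IsCyclotomicExtension {p} ℚ K] in
/-- **Bounded ranks ascend in Galois `p`-extensions.** -/
theorem exists_rank_ascends (hp2 : p ≠ 2) (hζ : ∃ ζ : K, IsPrimitiveRoot ζ p) (L : Type) [Field L]
    [NumberField L] [Algebra K L] [IsGalois K L] {a : ℕ} (hdeg : Module.finrank K L = p ^ a)
    (hK : ∃ C, ∀ n, ∀ (M : Type) [Field M] [NumberField M] [Algebra K M]
      [IsCyclotomicExtension {p ^ (n + 1)} K M],
        Nat.card {x : ClassGroup (𝓞 M) // x ^ p = 1} ≤ C) :
    ∃ C, ∀ n, ∀ (M : Type) [Field M] [NumberField M] [Algebra L M]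
      [IsCyclotomicExtension {p ^ (n + 1)} L M],
        Nat.card {x : ClassGroup (𝓞 M) // x ^ p = 1} ≤ C := by
  let f : L →ₐ[K] AlgebraicClosure K := IsAlgClosed.lift
  set E := f.fieldRange
  let eL : L ≃ₐ[K] E := AlgEquiv.ofInjectiveField f
  haveI : FiniteDimensional K E := eL.toLinearEquiv.finiteDimensional
  haveI : IsGalois K E := IsGalois.of_algEquiv eL
  have hE : IsPGroup p (E ≃ₐ[K] E) := IsPGroup.of_card (n := a) (by
    rw [IsGalois.card_aut_eq_finrank, ← eL.toLinearEquiv.finrank_eq, hdeg])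
  obtain ⟨C, hC⟩ := hK
  obtain ⟨C', hC'⟩ := exists_rank_bound E hp2 hζ hE ⟨C, fun n => hC n (cycOver K p n)⟩
  refine ⟨C', fun n M _ _ _ _ => ?_⟩
  obtain ⟨eM⟩ := nonempty_equiv_comp (p := p) f n M
  exact (card_torsion_congr eM p).trans_le (hC' n)

omit hp [IsCyclotomicExtension {p} ℚ K] in
/-- In an extension of degree prime to `p` the classes killed by `p` embed. -/
theorem card_torsion_le_of_coprime [Fact p.Prime] (F M : Type) [Field F] [NumberField F] [Field M]
    [NumberField M] [Algebra F M] (hdeg : ¬ p ∣ Module.finrank F M) :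
    Nat.card {x : ClassGroup (𝓞 F) // x ^ p = 1} ≤
      Nat.card {x : ClassGroup (𝓞 M) // x ^ p = 1} := by
  set ext := ClassGroup.extendedHom (𝓞 F) (𝓞 M)
  refine Nat.card_le_card_of_injective
    (fun x => ⟨ext x.1, by rw [← map_pow, x.2, map_one]⟩) fun x y h => Subtype.ext ?_
  have h1 : ext (x.1 / y.1) = 1 := by
    rw [map_div, show ext x.1 = ext y.1 from congrArg Subtype.val h, div_self']
  have h2 : (x.1 / y.1) ^ p = 1 := by rw [div_pow, x.2, y.2, div_self']
  refine div_eq_one.1 ?_
  rw [← pow_one (x.1 / y.1), ← (Fact.out : p.Prime).coprime_iff_not_dvd.2 hdeg]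
  exact pow_gcd_eq_one.2 ⟨h2, FA.ClassField94.pow_finrank_eq_one h1⟩

/-- **`μ = 0` below**: a `ℤ_p`-extension whose levels have extensions of degree prime to `p` which
are levels of `L` has `μ = 0`. -/
theorem exists_muZero_below (hp2 : p ≠ 2) (L : Type) [Field L] [NumberField L] [Algebra K L]
    [IsGalois K L] {a : ℕ} (hdeg : Module.finrank K L = p ^ a) {k : Type} [Field k] [NumberField k]
    (T : ZpTower p k) [∀ j, NumberField (T.field j)] (lev : ℕ → ℕ) (M : ℕ → Type)
    [∀ j, Field (M j)] [∀ j, NumberField (M j)] [∀ j, Algebra L (M j)]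
    [∀ j, IsCyclotomicExtension {p ^ (lev j + 1)} L (M j)] [∀ j, Algebra (T.field j) (M j)]
    (hprime : ∀ j, ¬ p ∣ Module.finrank (T.field j) (M j)) :
    ∃ (lam : ℕ) (nu : ℤ) (n₀ : ℕ), ∀ j, n₀ ≤ j →
      (padicValNat p (classNumber (T.field j)) : ℤ) = lam * j + nu := by
  obtain ⟨lam, nu, n₀, C, h⟩ := exists_muZero_ext (K := K) hp2 L hdeg
  obtain ⟨lam', nu', n₀', h', -⟩ := T.mu_eq_zero_of_le (a := 0) (b := C) (n₁ := 0) fun j _ => by
    refine le_trans ((card_torsion_le_of_coprime (T.field j) (M j) (hprime j)).trans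
      (h (lev j) (M j)).2) ?_
    rw [zero_mul, zero_add]
    exact (Nat.lt_pow_self hp.out.one_lt).le
  exact ⟨lam', nu', n₀', h'⟩

end FA.MuExtensions
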