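import Fermat.Agent.MuExtensions.Group
import Fermat.Agent.IwasawaGrowth.MuCriterion

/-!
# The `p`-rank in a cyclic extension of degree `p`

Let `L/K` be cyclic of degree `p`, `p` odd, ramified at `t` primes of `K`. In the Galois group `G`
over `K` of the `p`-class field of `L` the commutators and `p`-th powers of `A = Gal(/L)` cut out an
abelian extension of `K`, whose inertia groups have order `p` at most, so
`|Cl(L)[p]| ≤ (p ^ (t + 1) |Cl(K)[p]|) ^ p` (`card_torsion_le_of_cyclic`).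

Classical (genus theory).
-/

set_option autoImplicit false
set_option linter.unusedSectionVars false
set_option linter.style.haveILetI false

noncomputable section

open NumberField IsDedekindDomain
open FA.ArtinRec (IsRam belowP exists_belowP galPrime finite_isRam)
open Fermat.Agent.ClassFieldTower
open FA.IwasawaGrowth
open scoped Pointwise

namespace FA.MuExtensions

variable {p : ℕ} [hp : Fact p.Prime]

/-- In a commutative group a supremum of `t` subgroups of order at most `m` has order at most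
`m ^ t`. -/
theorem card_sup_le_pow {Q : Type*} [CommGroup Q] [Finite Q] {ι : Type*} {m : ℕ}
    (s : Finset ι) (H : ι → Subgroup Q) (hH : ∀ i ∈ s, Nat.card (H i) ≤ m) :
    Nat.card (s.sup H : Subgroup Q) ≤ m ^ s.card := by
  classical
  induction s using Finset.induction_on with
  | empty => simp
  | insert i s hi ih =>
    rw [Finset.sup_insert, Finset.card_insert_of_notMem hi, pow_succ']
    refine le_trans ?_ (Nat.mul_le_mul (hH i (Finset.mem_insert_self i s))
      (ih fun j hj => hH j (Finset.mem_insert_of_mem hj)))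
    rw [← Nat.card_prod]
    refine Nat.card_le_card_of_surjective
      (fun x : H i × (s.sup H : Subgroup Q) => (⟨x.1.1 * x.2.1, Subgroup.mul_mem_sup x.1.2 x.2.2⟩ :
        (H i ⊔ s.sup H : Subgroup Q))) fun x => ?_
    obtain ⟨y, hy, z, hz, hyz⟩ := Subgroup.mem_sup.1 x.2
    exact ⟨(⟨y, hy⟩, ⟨z, hz⟩), Subtype.ext hyz⟩

variable {K : Type} [Field K] [NumberField K]

attribute [local instance] numberField_sub

/-- **The bound inside an algebraic closure.** -/
theorem card_torsion_le_sub (hp2 : p ≠ 2) (E : IntermediateField K (AlgebraicClosure K))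
    [FiniteDimensional K E] [IsGalois K E] (hdeg : Module.finrank K E = p) :
    Nat.card {x : ClassGroup (𝓞 E) // x ^ p = 1} ≤
      (p ^ (Nat.card {v : HeightOneSpectrum (𝓞 K) // IsRam E v} + 1) *
        Nat.card {x : ClassGroup (𝓞 K) // x ^ p = 1}) ^ p := by
  classical
  obtain ⟨X, _, _, hX⟩ := exists_isClassField (p := p) E
  set A := sub hX.le
  have hcomm : ∀ a ∈ A, ∀ b ∈ A, a * b = b * a := fun a ha b hb => by
    have h := Subgroup.mem_bot.1 (hX.good.comm a ha b hb)
    rwa [mul_inv_eq_one, mul_inv_eq_iff_eq_mul] at h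
  have hker : (res (K := K) hX.le).ker = A := ker_res hX.le
  have hsurj := res_surjective (L := E) (N := X) hX.le
  have hidx : A.index = p := by
    rw [← hker, Subgroup.index_ker, MonoidHom.range_eq_top.2 hsurj, Subgroup.card_top,
      IsGalois.card_aut_eq_finrank, hdeg]
  have : IsCyclic (E ≃ₐ[K] E) :=
    isCyclic_of_prime_card ((IsGalois.card_aut_eq_finrank K E).trans hdeg)
  obtain ⟨γ, hγ⟩ := IsCyclic.exists_generator (α := E ≃ₐ[K] E)
  obtain ⟨σ, hσ⟩ := hsurj γ
  have hmemA : ∀ g, g ∈ A ↔ res hX.le g = 1 := fun g => by rw [← hker, MonoidHom.mem_ker]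
  have hE : ∀ t : E ≃ₐ[K] E, t ^ p = 1 := fun t => by
    rw [← hdeg, ← IsGalois.card_aut_eq_finrank, pow_card_eq_one']
  have hσp : σ ^ p ∈ A := (hmemA _).2 (by rw [map_pow, hE])
  obtain ⟨f, hf⟩ := hX.exists_surjective
  letI : CommGroup A :=
    { (inferInstance : Group A) with
      mul_comm := fun a b => Subtype.ext (hcomm a a.2 b b.2) }
  have hcard : Nat.card {x : ClassGroup (𝓞 E) // x ^ p = 1} = Nat.card {a : A // a ^ p = 1} :=
    card_torsion_eq_of_surjective (C := ClassGroup (𝓞 E)) (X := A) f hf (by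
      rw [hX.card, classNumber, Nat.card_eq_fintype_card])
  rw [hcard]
  refine (card_torsion_le_index_pow A hcomm hσp).trans (Nat.pow_le_pow_left ?_ p)
  set W : Subgroup (X ≃ₐ[K] X) := (commPow A p σ).map A.subtype
  have hWA : W ≤ A := Subgroup.map_subtype_le _
  have hgenσ : ∀ g : X ≃ₐ[K] X, ∃ (i : ℕ) (a : A), g = σ ^ i * a.1 := fun g => by
    obtain ⟨i, hi⟩ := Submonoid.mem_powers_iff (res hX.le g) γ |>.1
      (mem_powers_iff_mem_zpowers.2 (hγ _))
    refine ⟨i, ⟨(σ ^ i)⁻¹ * g, (hmemA _).2 ?_⟩, by simp⟩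
    rw [map_mul, map_inv, map_pow, hσ, hi, inv_mul_cancel]
  have hgen : ∀ a : A, σ * a.1 * σ⁻¹ * a.1⁻¹ ∈ W := fun a =>
    ⟨_, Subgroup.subset_closure (Or.inr ⟨a, rfl⟩), rfl⟩
  have hpow : ∀ a : A, a.1 ^ p ∈ W := fun a =>
    ⟨_, Subgroup.subset_closure (Or.inl ⟨a, rfl⟩), rfl⟩
  have hWn : W.Normal := ⟨fun w hw g => by
    obtain ⟨i, a, rfl⟩ := hgenσ g
    obtain ⟨b, hb, rfl⟩ := hw
    have h1 : ∀ (j : ℕ) (b : A), (b : X ≃ₐ[K] X) ∈ W → σ ^ j * b.1 * (σ ^ j)⁻¹ ∈ W := fun j => by
      induction j with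
      | zero => intro b hb; simpa using hb
      | succ j ih =>
        intro b hb
        have h2 := W.mul_mem (hgen b) hb
        rw [inv_mul_cancel_right] at h2
        have h3 := ih ⟨_, hWA h2⟩ h2
        convert h3 using 1
        rw [pow_succ]
        group
    have h2 : a.1 * b.1 * a.1⁻¹ = b.1 := by
      rw [hcomm _ a.2 _ b.2, mul_inv_cancel_right]
    have h3 := h1 i b ⟨b, hb, rfl⟩
    convert h3 using 1
    calc σ ^ i * a.1 * b.1 * (σ ^ i * a.1)⁻¹ = σ ^ i * (a.1 * b.1 * a.1⁻¹) * (σ ^ i)⁻¹ := by group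
      _ = σ ^ i * b.1 * (σ ^ i)⁻¹ := by rw [h2]⟩
  let π := QuotientGroup.mk' W
  have hcentral : ∀ (i : ℕ) (a : A), π (σ ^ i) * π a.1 = π a.1 * π (σ ^ i) := fun i a => by
    have h1 : Commute (π σ) (π a.1) := by
      have h2 : π (σ * a.1 * σ⁻¹ * a.1⁻¹) = 1 := (QuotientGroup.eq_one_iff _).2 (hgen a)
      rwa [map_mul, map_mul, map_mul, map_inv, map_inv, mul_inv_eq_one,
        mul_inv_eq_iff_eq_mul] at h2
    rw [map_pow]
    exact (h1.pow_left i).eq
  have hQcomm : ∀ x y : (X ≃ₐ[K] X) ⧸ W, x * y = y * x := fun x y => by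
    obtain ⟨g, rfl⟩ := QuotientGroup.mk'_surjective W x
    obtain ⟨h, rfl⟩ := QuotientGroup.mk'_surjective W y
    obtain ⟨i, a, rfl⟩ := hgenσ g
    obtain ⟨j, b, rfl⟩ := hgenσ h
    have hab : π a.1 * π b.1 = π b.1 * π a.1 := by
      rw [← map_mul, hcomm _ a.2 _ b.2, map_mul]
    have hij : π (σ ^ i) * π (σ ^ j) = π (σ ^ j) * π (σ ^ i) := by
      rw [← map_mul, ← map_mul, pow_mul_comm]
    show π (σ ^ i * a.1) * π (σ ^ j * b.1) = π (σ ^ j * b.1) * π (σ ^ i * a.1)
    rw [map_mul, map_mul]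
    exact (Commute.mul_left (Commute.mul_right hij (hcentral i b))
      (Commute.mul_right (hcentral j a).symm hab)).eq
  letI hQc : CommGroup ((X ≃ₐ[K] X) ⧸ W) :=
    { (inferInstance : Group ((X ≃ₐ[K] X) ⧸ W)) with mul_comm := hQcomm }
  -- the inertia groups
  set t := {v : HeightOneSpectrum (𝓞 K) // IsRam E v}
  haveI : Finite t := (finite_isRam K E).to_subtype
  haveI := Fintype.ofFinite t
  choose Q hQ using fun v : t => exists_belowP K X v.1
  set J : Subgroup ((X ≃ₐ[K] X) ⧸ W) :=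
    Finset.univ.sup fun v : t => ((Q v).asIdeal.inertia (X ≃ₐ[K] X)).map π
  have hJ : Nat.card J ≤ p ^ Nat.card t := by
    rw [Nat.card_eq_fintype_card (α := t), ← Finset.card_univ]
    refine card_sup_le_pow _ _ fun v _ => ?_
    refine le_trans (Nat.le_of_dvd Nat.card_pos (Subgroup.card_map_dvd _ _)) ?_
    rw [← hdeg, ← IsGalois.card_aut_eq_finrank]
    refine Nat.card_le_card_of_injective (fun s => res hX.le s.1) fun s s' h => ?_
    refine Subtype.ext (mul_inv_eq_one.1 ?_)
    refine Subgroup.mem_bot.1 (hX.good.inertia (Q v) _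
      (Subgroup.mul_mem _ s.2 (Subgroup.inv_mem _ s'.2)) ((hmemA _).2 ?_))
    rw [map_mul, map_inv]
    exact mul_inv_eq_one.2 h
  set V : Subgroup (X ≃ₐ[K] X) := J.comap π
  have : V.Normal := inferInstance
  have hinertia : ∀ (P : HeightOneSpectrum (𝓞 X)), ∀ s ∈ P.asIdeal.inertia (X ≃ₐ[K] X),
      s ∈ V := fun P s hs => by
    by_cases hsA : s ∈ A
    · rw [Subgroup.mem_bot.1 (hX.good.inertia P s hs hsA)]
      exact one_mem _
    have hv : IsRam E (belowP K P) :=
      ⟨under' hX.le P, belowP_under' hX.le P,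
        fun hbot => hsA ((hmemA s).2 (Subgroup.mem_bot.1 (hbot ▸ res_mem_inertia hX.le hs)))⟩
    obtain ⟨g, hg⟩ := Algebra.IsInvariant.exists_smul_of_under_eq (𝓞 K) (𝓞 X) (X ≃ₐ[K] X)
      P.asIdeal (Q ⟨_, hv⟩).asIdeal (congrArg HeightOneSpectrum.asIdeal (hQ ⟨_, hv⟩).symm)
    have h1 := inertia_conj hs g
    rw [show galPrime g P = Q ⟨_, hv⟩ from HeightOneSpectrum.ext hg.symm] at h1
    have h2 : π (g * s * g⁻¹) ∈ J := Finset.le_sup (f := fun v : t =>
      ((Q v).asIdeal.inertia (X ≃ₐ[K] X)).map π) (Finset.mem_univ ⟨_, hv⟩) ⟨_, h1, rfl⟩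
    rw [map_mul, map_mul, map_inv, mul_comm (π g), mul_inv_cancel_right] at h2
    exact h2
  have hplace : ∀ (u : InfinitePlace X), ∀ s ∈ MulAction.stabilizer (X ≃ₐ[K] X) u, s = 1 :=
    fun u s hs => by
    have h2 : s ^ 2 = 1 := by
      have h1 := congrArg Subtype.val (pow_card_eq_one'
        (x := (⟨s, hs⟩ : MulAction.stabilizer (X ≃ₐ[K] X) u)))
      rcases InfinitePlace.nat_card_stabilizer_eq_one_or_two K u with h | h
      · rw [h] at h1
        rw [show s = 1 from (pow_one s).symm.trans h1, one_pow]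
      · rw [h] at h1
        exact h1
    refine Subgroup.mem_bot.1 (hX.good.place u s hs ((hmemA s).2 ?_))
    rw [← pow_one (res hX.le s), ← ((Nat.coprime_primes hp.out Nat.prime_two).2 hp2)]
    exact pow_gcd_eq_one.2 ⟨hE _, by rw [← map_pow, h2, map_one]⟩
  set Y := IntermediateField.fixedField V
  have : IsGalois K Y := IsGalois.of_fixedField_normal_subgroup V
  have : NumberField Y := NumberField.of_module_finite K Y
  let q : (X ≃ₐ[K] X) ⧸ V ≃* (Y ≃ₐ[K] Y) := IsGalois.normalAutEquivQuotient V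
  have hq : ∀ s, AlgEquiv.restrictNormalHom Y s = 1 ↔ s ∈ V := fun s => by
    rw [← MonoidHom.mem_ker, IntermediateField.restrictNormalHom_ker,
      IntermediateField.fixingSubgroup_fixedField]
  have hYc : ∀ a b : Y ≃ₐ[K] Y, a * b = b * a := fun a b => by
    obtain ⟨a, rfl⟩ := AlgEquiv.restrictNormalHom_surjective (F := K) (K₁ := Y) X a
    obtain ⟨b, rfl⟩ := AlgEquiv.restrictNormalHom_surjective (F := K) (K₁ := Y) X b
    rw [← commutatorElement_eq_one_iff_mul_comm, ← map_commutatorElement, hq, Subgroup.mem_comap,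
      map_commutatorElement, commutatorElement_eq_one_iff_mul_comm.2 (mul_comm _ _)]
    exact one_mem _
  have hu : UnrEverywhere K Y := by
    refine ⟨unramifiedPrimes_of_inertia_eq_bot fun P hP hP0 => ?_, ⟨fun w => ?_⟩⟩
    · obtain ⟨P', hP'⟩ := exists_belowP Y X (⟨P, hP, hP0⟩ : HeightOneSpectrum (𝓞 Y))
      haveI := P'.isMaximal
      refine (Subgroup.eq_bot_iff_forall _).2 fun τ hτ => ?_
      have hP'' : P'.asIdeal.under (𝓞 Y) = P := congrArg HeightOneSpectrum.asIdeal hP'
      obtain ⟨s, hs, rfl⟩ := FA.ArtinL.exists_inertia_lift (K := K) P'.asIdeal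
        (τ := τ) (hP''.symm ▸ hτ)
      exact (hq s).2 (hinertia P' s hs)
    · rw [InfinitePlace.isUnramified_iff_stabilizer_eq_bot, Subgroup.eq_bot_iff_forall]
      intro τ hτ
      obtain ⟨u, rfl⟩ := InfinitePlace.comap_surjective (K := X) w
      obtain ⟨s, hs, rfl⟩ := exists_stabilizer_lift (K := K) u hτ
      rw [hplace u s hs, map_one]
  obtain ⟨F, hF⟩ := exists_classGroup_surjective hYc hu
  have hVcomm : ∀ a b : (X ≃ₐ[K] X) ⧸ V, a * b = b * a := fun a b =>
    q.injective (by rw [map_mul, map_mul]; exact hYc _ _)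
  letI : CommGroup ((X ≃ₐ[K] X) ⧸ V) :=
    { (inferInstance : Group ((X ≃ₐ[K] X) ⧸ V)) with mul_comm := hVcomm }
  have hGV : Nat.card ((X ≃ₐ[K] X) ⧸ V) ≤
      p * Nat.card {x : ClassGroup (𝓞 K) // x ^ p = 1} := by
    refine card_le_of_image (q.symm.toMonoidHom.comp F) (q.symm.surjective.comp hF)
      (A.map (QuotientGroup.mk' V)) ?_ ?_
    · rintro _ ⟨a, ha, rfl⟩
      rw [← map_pow, QuotientGroup.mk'_apply, QuotientGroup.eq_one_iff, Subgroup.mem_comap,
        show π (a ^ p) = 1 from (QuotientGroup.eq_one_iff _).2 (hpow ⟨a, ha⟩)]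
      exact one_mem _
    · exact hidx ▸ Nat.le_of_dvd (hidx ▸ hp.out.pos)
        (Subgroup.index_map_dvd (H := A) (QuotientGroup.mk'_surjective V))
  have hGW : W.index = V.index * Nat.card J := by
    rw [Subgroup.index_comap_of_surjective _ (QuotientGroup.mk'_surjective W), mul_comm,
      Subgroup.card_mul_index, ← Subgroup.index_eq_card]
  calc (commPow A p σ).index = W.relIndex A := by
        rw [Subgroup.relIndex, Subgroup.subgroupOf,
          Subgroup.comap_map_eq_self_of_injective A.subtype_injective]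
    _ ≤ W.index := Nat.le_of_dvd (Nat.pos_of_ne_zero Subgroup.FiniteIndex.index_ne_zero)
        (Subgroup.relIndex_dvd_index_of_normal W A)
    _ ≤ p * Nat.card {x : ClassGroup (𝓞 K) // x ^ p = 1} * p ^ Nat.card t := by
        rw [hGW, Subgroup.index_eq_card]
        exact Nat.mul_le_mul hGV hJ
    _ = _ := by rw [pow_succ]; ring

/-- **The `p`-rank in a cyclic extension of degree `p`.** -/
theorem card_torsion_le_of_cyclic (hp2 : p ≠ 2) (K L : Type) [Field K] [NumberField K] [Field L]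
    [NumberField L] [Algebra K L] [IsGalois K L] (hdeg : Module.finrank K L = p) :
    Nat.card {x : ClassGroup (𝓞 L) // x ^ p = 1} ≤
      (p ^ (Nat.card {v : HeightOneSpectrum (𝓞 K) // IsRam L v} + 1) *
        Nat.card {x : ClassGroup (𝓞 K) // x ^ p = 1}) ^ p := by
  let f : L →ₐ[K] AlgebraicClosure K := IsAlgClosed.lift
  set E := f.fieldRange
  let e : L ≃ₐ[K] E := AlgEquiv.ofInjectiveField f
  haveI : FiniteDimensional K E := e.toLinearEquiv.finiteDimensional
  haveI : IsGalois K E := IsGalois.of_algEquiv e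
  let ecl := ClassGroup.mulEquiv (RingOfIntegers.mapRingEquiv e.toRingEquiv)
  have h1 : Nat.card {x : ClassGroup (𝓞 L) // x ^ p = 1} =
      Nat.card {x : ClassGroup (𝓞 E) // x ^ p = 1} :=
    Nat.card_congr (ecl.toEquiv.subtypeEquiv fun x => by
      show x ^ p = 1 ↔ ecl x ^ p = 1
      rw [← map_pow, map_eq_one_iff ecl ecl.injective])
  rw [h1]
  refine (card_torsion_le_sub hp2 E (e.toLinearEquiv.finrank_eq.symm.trans hdeg)).trans ?_
  refine Nat.pow_le_pow_left (Nat.mul_le_mul_right _ (Nat.pow_le_pow_right hp.out.pos ?_)) p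
  letI : Algebra E L := e.symm.toRingEquiv.toRingHom.toAlgebra
  haveI : IsScalarTower K E L := IsScalarTower.of_algebraMap_eq fun x => (e.symm.commutes x).symm
  haveI : Finite {v : HeightOneSpectrum (𝓞 K) // IsRam L v} := (finite_isRam K L).to_subtype
  exact Nat.add_le_add_right (Nat.card_le_card_of_injective
    (fun v : {v : HeightOneSpectrum (𝓞 K) // IsRam E v} =>
      (⟨v.1, FA.ArtinRec.isRam_of_tower v.2⟩ : {v : HeightOneSpectrum (𝓞 K) // IsRam L v}))
    fun v w h => Subtype.ext (congrArg (fun z => z.1) h)) 1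

end FA.MuExtensions
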